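/-
ALPHA / S32 (helper1), piece (e0): from Hopf orders on the finite quotients to `IsFlatAt`.

* `AlphHasOrder.of_addEquiv`, `AlphHasOrder.of_subquotient`, `alph_hasOrder_of_subsingleton`,
  `AlphHasOrder.pi` (finite products, dependent), `AlphHasOrder.pi_const`: closure properties,
  packaged from Closure.lean;
* `alpsLevelAction ρ I` : the `G_ℚ`-module structure of `ρ.V ⧸ I ρ.V` (Prelude `levelAction`);
* `alps_finite_quot` : this quotient is finite when `A ⧸ I` is;
* `alps_isFlatAt_of_order` : if every `ρ.V ⧸ I ρ.V` (`A ⧸ I` finite) has a Hopf order over `ℤ_(p)`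
  then `ρ.IsFlatAt p`.
-/
import Mathlib
import Fermat.Prelude.Def_GaloisRep_Flat
import Fermat.Agent.Lib.Alpha.Hopf.Closure

set_option autoImplicit false
set_option linter.unusedSectionVars false
set_option linter.unusedVariables false
set_option linter.style.haveILetI false

namespace Fermat.Agent.Alpha

local notation "Qb" => AlgebraicClosure ℚ
local notation "GQ" => (AlgebraicClosure ℚ ≃ₐ[ℚ] AlgebraicClosure ℚ)

section Closure

variable {ℓ : ℕ} [Fact ℓ.Prime]
variable {V W U : Type} [AddCommGroup V] [DistribMulAction GQ V] [AddCommGroup W]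
  [DistribMulAction GQ W] [AddCommGroup U] [DistribMulAction GQ U]

/-- transport along an equivariant isomorphism -/
theorem AlphHasOrder.of_addEquiv (h : AlphHasOrder ℓ V) (e : W ≃+ V)
    (he : ∀ (σ : GQ) (w : W), e (σ • w) = σ • e w) : AlphHasOrder ℓ W :=
  h.of_injective e.toAddMonoidHom e.injective he

/-- **sub-quotients**: if `U ↪ V` and `U ↠ W` equivariantly and `V` has a Hopf order, so has `W` -/
theorem AlphHasOrder.of_subquotient [Finite V] (h : AlphHasOrder ℓ V) (ι : U →+ V)
    (hι : Function.Injective ι) (hισ : ∀ (σ : GQ) (u : U), ι (σ • u) = σ • ι u) (π : U →+ W)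
    (hπ : Function.Surjective π) (hπσ : ∀ (σ : GQ) (u : U), π (σ • u) = σ • π u) :
    AlphHasOrder ℓ W := by
  classical
  haveI : Fintype V := Fintype.ofFinite V
  haveI : Fintype U := Fintype.ofInjective ι hι
  exact (h.of_injective ι hι hισ).of_surjective π hπ hπσ

/-- the trivial module has a Hopf order -/
theorem alph_hasOrder_of_subsingleton [Subsingleton V] : AlphHasOrder ℓ V := by
  refine ⟨⊥, ?_⟩
  have hconst : ∀ f ∈ (⊥ : Subalgebra ↥(GaloisRep.ratLocalizedAt ℓ) (V → Qb)),
      ∃ r : ↥(GaloisRep.ratLocalizedAt ℓ), f = fun _ => algebraMap ↥(GaloisRep.ratLocalizedAt ℓ) Qb r := by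
    intro f hf
    obtain ⟨r, rfl⟩ := Algebra.mem_bot.mp hf
    exact ⟨r, rfl⟩
  refine ⟨?_, ?_, ?_, ?_⟩
  · rw [Algebra.toSubmodule_bot, Submodule.one_eq_span]
    exact Submodule.fg_span_singleton (R := ↥(GaloisRep.ratLocalizedAt ℓ)) (1 : V → Qb)
  · intro f hf σ x
    obtain ⟨r, rfl⟩ := hconst f hf
    show algebraMap ↥(GaloisRep.ratLocalizedAt ℓ) Qb r = σ (algebraMap ↥(GaloisRep.ratLocalizedAt ℓ) Qb r)
    have h1 : algebraMap ↥(GaloisRep.ratLocalizedAt ℓ) Qb r = algebraMap ℚ Qb (r : ℚ) := rfl
    rw [h1, AlgEquiv.commutes]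
  · intro x y hxy
    exact absurd (Subsingleton.elim x y) hxy
  · intro f hf
    refine ⟨1, fun _ => f, fun _ => 1, fun _ => hf, fun _ => Subalgebra.one_mem _, fun x y => ?_⟩
    rw [Fin.sum_univ_one]
    show f (x + y) = f x * 1
    rw [mul_one, Subsingleton.elim (x + y) x]

end Closure

section Pi

variable {ℓ : ℕ} [Fact ℓ.Prime]

/-- **finite products** -/
theorem AlphHasOrder.pi {ι : Type} [Finite ι] (V : ι → Type) [∀ i, AddCommGroup (V i)]
    [∀ i, DistribMulAction GQ (V i)] (h : ∀ i, AlphHasOrder ℓ (V i)) :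
    AlphHasOrder ℓ (∀ i, V i) := by
  classical
  revert V
  refine Finite.induction_empty_option
    (P := fun ι : Type => ∀ (V : ι → Type) [∀ i, AddCommGroup (V i)]
      [∀ i, DistribMulAction GQ (V i)], (∀ i, AlphHasOrder ℓ (V i)) → AlphHasOrder ℓ (∀ i, V i))
    ?_ ?_ ?_ ι
  · -- equivalences of index types
    intro α β e hα V _ _ hV
    have h1 := hα (fun a => V (e a)) (fun a => hV (e a))
    refine h1.of_injective
      { toFun := fun f a => f (e a), map_zero' := rfl, map_add' := fun _ _ => rfl } ?_ ?_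
    · intro f g hfg
      funext b
      have := congrFun hfg (e.symm b)
      simp only [AddMonoidHom.coe_mk, ZeroHom.coe_mk] at this
      have hb : e (e.symm b) = b := e.apply_symm_apply b
      rw [hb] at this
      exact this
    · intro σ f
      rfl
  · -- the empty product
    intro V _ _ _
    exact alph_hasOrder_of_subsingleton
  · -- one more factor
    intro α _ hα V _ _ hV
    have h1 := hα (fun a => V (some a)) (fun a => hV (some a))
    have h2 := (hV none).prod h1
    refine h2.of_injective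
      { toFun := fun f => (f none, fun a => f (some a)), map_zero' := rfl,
        map_add' := fun _ _ => rfl } ?_ ?_
    · intro f g hfg
      funext o
      have h3 := congrArg Prod.fst hfg
      have h4 := congrArg Prod.snd hfg
      simp only [AddMonoidHom.coe_mk, ZeroHom.coe_mk] at h3 h4
      cases o with
      | none => exact h3
      | some a => exact congrFun h4 a
    · intro σ f
      rfl

/-- finite powers -/
theorem AlphHasOrder.pi_const {ι : Type} [Finite ι] {V : Type} [AddCommGroup V]
    [DistribMulAction GQ V] (h : AlphHasOrder ℓ V) : AlphHasOrder ℓ (ι → V) :=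
  AlphHasOrder.pi (fun _ => V) (fun _ => h)

end Pi

section Flat

variable {A : Type} [CommRing A] [IsLocalRing A]

theorem alps_levelAction_mk (ρ : GaloisRepAdic A) (I : Ideal A) (σ : GQ) (v : ρ.V) :
    ρ.levelAction I σ (Submodule.Quotient.mk v) = Submodule.Quotient.mk (ρ.ρ σ v) := rfl

/-- the `G_ℚ`-module structure of `ρ.V ⧸ I ρ.V` -/
@[instance_reducible]
noncomputable def alpsLevelAction (ρ : GaloisRepAdic A) (I : Ideal A) :
    DistribMulAction GQ (ρ.V ⧸ (I • (⊤ : Submodule A ρ.V))) where
  smul σ x := ρ.levelAction I σ x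
  one_smul x := by
    induction x using Submodule.Quotient.induction_on with
    | H v =>
      show ρ.levelAction I 1 (Submodule.Quotient.mk v) = _
      rw [alps_levelAction_mk, map_one]
      rfl
  mul_smul σ τ x := by
    induction x using Submodule.Quotient.induction_on with
    | H v =>
      show ρ.levelAction I (σ * τ) (Submodule.Quotient.mk v) =
        ρ.levelAction I σ (ρ.levelAction I τ (Submodule.Quotient.mk v))
      rw [alps_levelAction_mk, alps_levelAction_mk, alps_levelAction_mk, map_mul]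
      rfl
  smul_zero σ := map_zero (ρ.levelAction I σ)
  smul_add σ x y := map_add (ρ.levelAction I σ) x y

theorem alpsLevelAction_smul (ρ : GaloisRepAdic A) (I : Ideal A) (σ : GQ)
    (x : ρ.V ⧸ (I • (⊤ : Submodule A ρ.V))) :
    letI := alpsLevelAction ρ I
    σ • x = ρ.levelAction I σ x := rfl

/-- `ρ.V ⧸ I ρ.V` is finite when `A ⧸ I` is -/
theorem alps_finite_quot (ρ : GaloisRepAdic A) (I : Ideal A) [Finite (A ⧸ I)] :
    Finite (ρ.V ⧸ (I • (⊤ : Submodule A ρ.V))) := by
  haveI : Module.Finite (A ⧸ I) (ρ.V ⧸ (I • (⊤ : Submodule A ρ.V))) :=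
    Module.Finite.of_restrictScalars_finite A (A ⧸ I) _
  exact Module.finite_of_finite (A ⧸ I)

/-- **`IsFlatAt` from Hopf orders on all finite quotients** -/
theorem alps_isFlatAt_of_order (p : ℕ) [Fact p.Prime] (ρ : GaloisRepAdic A)
    (hres : Finite (IsLocalRing.ResidueField A))
    (h : ∀ I : Ideal A, Finite (A ⧸ I) →
      letI := alpsLevelAction ρ I
      AlphHasOrder p (ρ.V ⧸ (I • (⊤ : Submodule A ρ.V)))) :
    ρ.IsFlatAt p := by
  classical
  refine ⟨hres, fun I hI => ?_⟩
  letI := alpsLevelAction ρ I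
  haveI : Finite (ρ.V ⧸ (I • (⊤ : Submodule A ρ.V))) := alps_finite_quot ρ I
  haveI : Fintype (ρ.V ⧸ (I • (⊤ : Submodule A ρ.V))) := Fintype.ofFinite _
  exact (h I hI).flat

end Flat

end Fermat.Agent.Alpha
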