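/-
ALPHA / S32 (helper1): sub-quotients through a common cover.

* `alpsEndAction ρ`         : the `G_ℚ`-module structure given by `ρ : G_ℚ →* End_R M`;
* `alpsQuotAction ρ P hP`   : the induced structure on `M ⧸ P` for a stable submodule `P`;
* `AlphHasOrder.of_cover`   : if `f : A → V` and `g : A ↠ W` are equivariant with `ker f ≤ ker g`
  and `V` (finite) has a Hopf order, then `W` has a Hopf order (`A` may be infinite);
* `alps_exists_pow_mem`     : `p ^ k ∈ I` for a cofinite ideal `I` of a local ring with `p ∈ 𝔪`.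
-/
import Mathlib
import Fermat.Agent.Lib.Alpha.S32.Flat

set_option autoImplicit false
set_option linter.unusedSectionVars false
set_option linter.unusedVariables false
set_option linter.style.haveILetI false

namespace Fermat.Agent.Alpha

local notation "Qb" => AlgebraicClosure ℚ
local notation "GQ" => (AlgebraicClosure ℚ ≃ₐ[ℚ] AlgebraicClosure ℚ)

section Actions

variable {R M : Type} [CommRing R] [AddCommGroup M] [Module R M]

/-- the `G_ℚ`-module structure given by a representation -/
@[instance_reducible]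
noncomputable def alpsEndAction (ρ : GQ →* Module.End R M) : DistribMulAction GQ M where
  smul σ v := ρ σ v
  one_smul v := by
    show ρ 1 v = v
    rw [map_one]
    rfl
  mul_smul σ τ v := by
    show ρ (σ * τ) v = ρ σ (ρ τ v)
    rw [map_mul]
    rfl
  smul_zero σ := map_zero (ρ σ)
  smul_add σ v w := map_add (ρ σ) v w

theorem alpsEndAction_smul (ρ : GQ →* Module.End R M) (σ : GQ) (v : M) :
    letI := alpsEndAction ρ
    σ • v = ρ σ v := rfl

/-- the induced `G_ℚ`-module structure on the quotient by a stable submodule -/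
@[instance_reducible]
noncomputable def alpsQuotAction (ρ : GQ →* Module.End R M) (P : Submodule R M)
    (hP : ∀ σ, P ≤ P.comap (ρ σ)) : DistribMulAction GQ (M ⧸ P) where
  smul σ x := Submodule.mapQ P P (ρ σ) (hP σ) x
  one_smul x := by
    induction x using Submodule.Quotient.induction_on with
    | H v =>
      show Submodule.mapQ P P (ρ 1) (hP 1) (Submodule.Quotient.mk v) = _
      rw [Submodule.mapQ_apply, map_one]
      rfl
  mul_smul σ τ x := by
    induction x using Submodule.Quotient.induction_on with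
    | H v =>
      show Submodule.mapQ P P (ρ (σ * τ)) (hP (σ * τ)) (Submodule.Quotient.mk v) =
        Submodule.mapQ P P (ρ σ) (hP σ) (Submodule.mapQ P P (ρ τ) (hP τ) (Submodule.Quotient.mk v))
      rw [Submodule.mapQ_apply, Submodule.mapQ_apply, Submodule.mapQ_apply, map_mul]
      rfl
  smul_zero σ := map_zero (Submodule.mapQ P P (ρ σ) (hP σ))
  smul_add σ x y := map_add (Submodule.mapQ P P (ρ σ) (hP σ)) x y

theorem alpsQuotAction_mk (ρ : GQ →* Module.End R M) (P : Submodule R M)
    (hP : ∀ σ, P ≤ P.comap (ρ σ)) (σ : GQ) (v : M) :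
    letI := alpsQuotAction ρ P hP
    σ • (Submodule.Quotient.mk v : M ⧸ P) = Submodule.Quotient.mk (ρ σ v) := rfl

end Actions

section Cover

variable {ℓ : ℕ} [Fact ℓ.Prime]
variable {V W A : Type} [AddCommGroup V] [DistribMulAction GQ V] [AddCommGroup W]
  [DistribMulAction GQ W] [AddCommGroup A] [DistribMulAction GQ A]

/-- the `G_ℚ`-module structure on the quotient by the kernel of an equivariant map -/
@[instance_reducible]
noncomputable def alpsKerQuotAction (f : A →+ V) (hfσ : ∀ (σ : GQ) (a : A), f (σ • a) = σ • f a) :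
    DistribMulAction GQ (A ⧸ f.ker) where
  smul σ x := QuotientAddGroup.map f.ker f.ker (DistribSMul.toAddMonoidHom A σ) (by
    intro a ha
    rw [AddSubgroup.mem_comap, AddMonoidHom.mem_ker]
    show f (σ • a) = 0
    rw [hfσ, (AddMonoidHom.mem_ker).mp ha, smul_zero]) x
  one_smul x := by
    induction x using QuotientAddGroup.induction_on with
    | H a =>
      show ((QuotientAddGroup.mk ((1 : GQ) • a) : A ⧸ f.ker)) = QuotientAddGroup.mk a
      rw [one_smul]
  mul_smul σ τ x := by
    induction x using QuotientAddGroup.induction_on with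
    | H a =>
      show ((QuotientAddGroup.mk ((σ * τ) • a) : A ⧸ f.ker)) = QuotientAddGroup.mk (σ • τ • a)
      rw [mul_smul]
  smul_zero σ := map_zero _
  smul_add σ x y := map_add _ x y

/-- **sub-quotients through a common cover** -/
theorem AlphHasOrder.of_cover [Finite V] (h : AlphHasOrder ℓ V) (f : A →+ V)
    (hfσ : ∀ (σ : GQ) (a : A), f (σ • a) = σ • f a) (g : A →+ W)
    (hg : Function.Surjective g) (hgσ : ∀ (σ : GQ) (a : A), g (σ • a) = σ • g a)
    (hker : ∀ a, f a = 0 → g a = 0) : AlphHasOrder ℓ W := by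
  letI := alpsKerQuotAction f hfσ
  have hle : f.ker ≤ g.ker := fun a ha => (AddMonoidHom.mem_ker).mpr
    (hker a ((AddMonoidHom.mem_ker).mp ha))
  refine h.of_subquotient (U := A ⧸ f.ker) (QuotientAddGroup.kerLift f)
    (QuotientAddGroup.kerLift_injective f) ?_ (QuotientAddGroup.lift f.ker g hle) ?_ ?_
  · intro σ u
    induction u using QuotientAddGroup.induction_on with
    | H a =>
      show QuotientAddGroup.kerLift f (QuotientAddGroup.mk (σ • a)) = _
      rw [QuotientAddGroup.kerLift_mk, QuotientAddGroup.kerLift_mk, hfσ]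
  · intro w
    obtain ⟨a, rfl⟩ := hg w
    exact ⟨QuotientAddGroup.mk a, QuotientAddGroup.lift_mk _ _ a⟩
  · intro σ u
    induction u using QuotientAddGroup.induction_on with
    | H a =>
      show QuotientAddGroup.lift f.ker g hle (QuotientAddGroup.mk (σ • a)) = _
      rw [QuotientAddGroup.lift_mk, QuotientAddGroup.lift_mk, hgσ]

end Cover

section Pow

variable {A : Type} [CommRing A] [IsLocalRing A]

/-- a cofinite ideal of a local ring contains a power of every element of the maximal ideal -/
theorem alps_exists_pow_mem (I : Ideal A) [Finite (A ⧸ I)] {a : A}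
    (ha : a ∈ IsLocalRing.maximalIdeal A) : ∃ k : ℕ, a ^ k ∈ I := by
  obtain ⟨m, n, hmn, heq⟩ := Finite.exists_ne_map_eq_of_infinite
    (fun k : ℕ => Ideal.Quotient.mk I (a ^ k))
  wlog hlt : m < n generalizing m n
  · exact this n m hmn.symm heq.symm (lt_of_le_of_ne (not_lt.mp hlt) hmn.symm)
  refine ⟨m, ?_⟩
  obtain ⟨d, rfl⟩ := Nat.exists_eq_add_of_lt hlt
  have h1 : a ^ m * (1 - a ^ (d + 1)) ∈ I := by
    have : a ^ m * (1 - a ^ (d + 1)) = a ^ m - a ^ (m + d + 1) := by ring
    rw [this]
    exact Ideal.Quotient.eq.mp heq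
  have h2 : IsUnit (1 - a ^ (d + 1)) := by
    have h3 : a ^ (d + 1) ∈ IsLocalRing.maximalIdeal A :=
      Ideal.pow_mem_of_mem _ ha _ (Nat.succ_pos d)
    by_contra hnu
    have h4 : 1 - a ^ (d + 1) ∈ IsLocalRing.maximalIdeal A :=
      (IsLocalRing.mem_maximalIdeal _).mpr hnu
    have h5 : (1 : A) ∈ IsLocalRing.maximalIdeal A := by
      have := Ideal.add_mem _ h4 h3
      rwa [sub_add_cancel] at this
    exact (Ideal.ne_top_iff_one _).mp (IsLocalRing.maximalIdeal.isMaximal A).ne_top h5
  obtain ⟨u, hu⟩ := h2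
  have h6 : a ^ m = a ^ m * (1 - a ^ (d + 1)) * ((u⁻¹ : Aˣ) : A) := by
    rw [mul_assoc, ← hu, Units.mul_inv, mul_one]
  rw [h6]
  exact Ideal.mul_mem_right _ _ h1

end Pow

end Fermat.Agent.Alpha
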