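/-
ALPHA / S32 (helper1), package (f), abstract part: **the eigen-lattice of a Tate module is flat**.

`TT` a `ℤ_p`-module with commuting actions `gal` of `G_ℚ` and `hecke` of a commutative ring `𝕋`;
`𝒪` a discrete valuation ring over `ℤ_p`, `lam : 𝕋 →+* 𝒪`, `E = teEigen hecke lam ≤ 𝒪 ⊗ TT` the
eigen-lattice (saturated).  If `κ : TT → J` is an equivariant additive map to a finite `G_ℚ`-module
with a Hopf order whose kernel is contained in `p ^ k TT`, and `p ^ k ∈ I`, then `E ⧸ I E` has a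
Hopf order:

`(J)^(𝒪/I) ⊇ (TT/p^k)^(𝒪/I) ↠ (𝒪 ⊗ TT) ⧸ I (𝒪 ⊗ TT) ⊇ E ⧸ I E`.
-/
import Mathlib
import Fermat.Agent.Lib.Alpha.S32.Cover
import Fermat.Agent.Lib.T1.Asm.EigenRep

set_option autoImplicit false
set_option linter.unusedSectionVars false
set_option linter.unusedVariables false
set_option linter.style.haveILetI false
set_option maxSynthPendingDepth 2

open scoped TensorProduct

namespace Fermat.Agent.Alpha

open Fermat.Agent.T1

local notation "Qb" => AlgebraicClosure ℚ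
local notation "GQ" => (AlgebraicClosure ℚ ≃ₐ[ℚ] AlgebraicClosure ℚ)

section General

variable {R M : Type} [CommRing R] [AddCommGroup M] [Module R M]

/-- `M ⧸ I M` is finite when `R ⧸ I` is and `M` is finitely generated -/
theorem alps_finite_quot_module [Module.Finite R M] (I : Ideal R) [Finite (R ⧸ I)] :
    Finite (M ⧸ (I • (⊤ : Submodule R M))) := by
  haveI : Module.Finite (R ⧸ I) (M ⧸ (I • (⊤ : Submodule R M))) :=
    Module.Finite.of_restrictScalars_finite R (R ⧸ I) _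
  exact Module.finite_of_finite (R ⧸ I)

/-- `I M` is stable under every endomorphism -/
theorem alps_smul_top_le_comap (I : Ideal R) (f : Module.End R M) :
    (I • (⊤ : Submodule R M)) ≤ (I • (⊤ : Submodule R M)).comap f := by
  rw [← Submodule.map_le_iff_le_comap, Submodule.map_smul'']
  exact Submodule.smul_mono le_rfl le_top

end General

section BaseChange

variable {p : ℕ} [Fact p.Prime] {TT : Type} [AddCommGroup TT] [Module ℤ_[p] TT]
  (gal : GQ →* Module.End ℤ_[p] TT) (𝒪 : Type) [CommRing 𝒪] [Algebra ℤ_[p] 𝒪]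

/-- the base change of the Galois action to `𝒪 ⊗ TT` -/
noncomputable def alpsBaseChangeRep : GQ →* Module.End 𝒪 (𝒪 ⊗[ℤ_[p]] TT) where
  toFun σ := (gal σ).baseChange 𝒪
  map_one' := by
    rw [map_one, LinearMap.baseChange_one]
  map_mul' σ τ := by
    rw [map_mul, LinearMap.baseChange_mul]

theorem alpsBaseChangeRep_apply (σ : GQ) (x : 𝒪 ⊗[ℤ_[p]] TT) :
    alpsBaseChangeRep gal 𝒪 σ x = (gal σ).baseChange 𝒪 x := rfl

end BaseChange

section Eigen

variable {p : ℕ} [Fact p.Prime] {TT : Type} [AddCommGroup TT] [Module ℤ_[p] TT]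
  (gal : GQ →* Module.End ℤ_[p] TT)
  {𝒪 : Type} [CommRing 𝒪] [Algebra ℤ_[p] 𝒪]
  {J : Type} [AddCommGroup J] [DistribMulAction GQ J]

/-- **step 1**: `(𝒪 ⊗ TT) ⧸ I (𝒪 ⊗ TT)` has a Hopf order -/
theorem alps_tensor_order [Finite J] (hJ : AlphHasOrder p J) (I : Ideal 𝒪) [Finite (𝒪 ⧸ I)]
    (k : ℕ) (hk : (p : 𝒪) ^ k ∈ I) (κ : TT →+ J)
    (hκσ : ∀ (σ : GQ) (x : TT), κ (gal σ x) = σ • κ x)
    (hκ : ∀ x, κ x = 0 → ∃ w : TT, x = (p : ℤ_[p]) ^ k • w) :
    letI := alpsQuotAction (alpsBaseChangeRep gal 𝒪) (I • (⊤ : Submodule 𝒪 (𝒪 ⊗[ℤ_[p]] TT)))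
      (fun σ => alps_smul_top_le_comap I _)
    AlphHasOrder p ((𝒪 ⊗[ℤ_[p]] TT) ⧸ (I • (⊤ : Submodule 𝒪 (𝒪 ⊗[ℤ_[p]] TT)))) := by
  classical
  letI := alpsQuotAction (alpsBaseChangeRep gal 𝒪) (I • (⊤ : Submodule 𝒪 (𝒪 ⊗[ℤ_[p]] TT)))
    (fun σ => alps_smul_top_le_comap I _)
  letI : DistribMulAction GQ TT := alpsEndAction gal
  haveI : Fintype (𝒪 ⧸ I) := Fintype.ofFinite _
  set c : 𝒪 ⧸ I → 𝒪 := fun i => Quotient.out i with hc
  have hcmk : ∀ a : 𝒪, c (Ideal.Quotient.mk I a) - a ∈ I := by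
    intro a
    rw [← Ideal.Quotient.eq]
    exact Quotient.out_eq _
  -- the two maps
  let f : ((𝒪 ⧸ I) → TT) →+ ((𝒪 ⧸ I) → J) := AddMonoidHom.compLeft κ (𝒪 ⧸ I)
  let g : ((𝒪 ⧸ I) → TT) →+ ((𝒪 ⊗[ℤ_[p]] TT) ⧸ (I • (⊤ : Submodule 𝒪 (𝒪 ⊗[ℤ_[p]] TT)))) :=
    { toFun := fun t => Submodule.Quotient.mk (∑ i, c i ⊗ₜ[ℤ_[p]] t i)
      map_zero' := by
        simp only [Pi.zero_apply, TensorProduct.tmul_zero, Finset.sum_const_zero,
          Submodule.Quotient.mk_zero]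
      map_add' := fun t t' => by
        simp only [Pi.add_apply, TensorProduct.tmul_add, Finset.sum_add_distrib,
          Submodule.Quotient.mk_add] }
  have hg_apply : ∀ t, g t = Submodule.Quotient.mk (∑ i, c i ⊗ₜ[ℤ_[p]] t i) := fun t => rfl
  refine (hJ.pi_const (ι := 𝒪 ⧸ I)).of_cover f ?_ g ?_ ?_ ?_
  · -- f equivariant
    intro σ t
    funext i
    exact hκσ σ (t i)
  · -- g surjective
    intro y
    induction y using Submodule.Quotient.induction_on with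
    | H x =>
      induction x using TensorProduct.induction_on with
      | zero => exact ⟨0, map_zero g⟩
      | tmul a t =>
        refine ⟨Pi.single (Ideal.Quotient.mk I a) t, ?_⟩
        rw [hg_apply, Finset.sum_eq_single (Ideal.Quotient.mk I a)]
        · rw [Pi.single_eq_same, Submodule.Quotient.eq, ← TensorProduct.sub_tmul]
          have h1 : (c (Ideal.Quotient.mk I a) - a) ⊗ₜ[ℤ_[p]] t =
              (c (Ideal.Quotient.mk I a) - a) • ((1 : 𝒪) ⊗ₜ[ℤ_[p]] t) := by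
            rw [TensorProduct.smul_tmul', smul_eq_mul, mul_one]
          rw [h1]
          exact Submodule.smul_mem_smul (hcmk a) Submodule.mem_top
        · intro j _ hj
          rw [Pi.single_eq_of_ne hj, TensorProduct.tmul_zero]
        · intro h
          exact absurd (Finset.mem_univ _) h
      | add x x' hx hx' =>
        obtain ⟨t, ht⟩ := hx
        obtain ⟨t', ht'⟩ := hx'
        exact ⟨t + t', by rw [map_add, ht, ht', Submodule.Quotient.mk_add]⟩
  · -- g equivariant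
    intro σ t
    rw [hg_apply, hg_apply, alpsQuotAction_mk, alpsBaseChangeRep_apply, map_sum]
    congr 1
  · -- kernels
    intro t ht
    have h1 : ∀ i, ∃ w : TT, t i = (p : ℤ_[p]) ^ k • w := fun i => hκ (t i) (congrFun ht i)
    choose w hw using h1
    rw [hg_apply, Submodule.Quotient.mk_eq_zero]
    refine Submodule.sum_mem _ fun i _ => ?_
    rw [hw i, TensorProduct.tmul_smul,
      algebra_compatible_smul 𝒪 ((p : ℤ_[p]) ^ k) (c i ⊗ₜ[ℤ_[p]] w i), map_pow, map_natCast]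
    exact Submodule.smul_mem_smul hk Submodule.mem_top

variable {𝕋 : Type} [CommRing 𝕋] (hecke : 𝕋 →+* Module.End ℤ_[p] TT)
  (hcomm : ∀ σ t, gal σ * hecke t = hecke t * gal σ) (lam : 𝕋 →+* 𝒪)

/-- **the eigen-lattice modulo `I` has a Hopf order** -/
theorem alps_eigen_order_abs [IsDomain 𝒪] [IsPrincipalIdealRing 𝒪] [Module.Free ℤ_[p] TT]
    [Module.Finite ℤ_[p] TT] [Finite J] (hJ : AlphHasOrder p J) (I : Ideal 𝒪) [Finite (𝒪 ⧸ I)]
    (k : ℕ) (hk : (p : 𝒪) ^ k ∈ I) (hk0 : (p : 𝒪) ^ k ≠ 0) (κ : TT →+ J)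
    (hκσ : ∀ (σ : GQ) (x : TT), κ (gal σ x) = σ • κ x)
    (hκ : ∀ x, κ x = 0 → ∃ w : TT, x = (p : ℤ_[p]) ^ k • w)
    [DistribMulAction GQ
      (↥(teEigen hecke lam) ⧸ (I • (⊤ : Submodule 𝒪 ↥(teEigen hecke lam))))]
    (hact : ∀ (σ : GQ) (e : ↥(teEigen hecke lam)),
      σ • (Submodule.Quotient.mk e :
        ↥(teEigen hecke lam) ⧸ (I • (⊤ : Submodule 𝒪 ↥(teEigen hecke lam)))) =
        Submodule.Quotient.mk (teRho gal hecke hcomm lam σ e)) :
    AlphHasOrder p (↥(teEigen hecke lam) ⧸ (I • (⊤ : Submodule 𝒪 ↥(teEigen hecke lam)))) := by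
  classical
  letI := alpsQuotAction (alpsBaseChangeRep gal 𝒪) (I • (⊤ : Submodule 𝒪 (𝒪 ⊗[ℤ_[p]] TT)))
    (fun σ => alps_smul_top_le_comap I _)
  have hY := alps_tensor_order gal hJ I k hk κ hκσ hκ
  haveI : Finite ((𝒪 ⊗[ℤ_[p]] TT) ⧸ (I • (⊤ : Submodule 𝒪 (𝒪 ⊗[ℤ_[p]] TT)))) :=
    alps_finite_quot_module I
  letI : DistribMulAction GQ ↥(teEigen hecke lam) := alpsEndAction (teRho gal hecke hcomm lam)
  -- a generator of `I`
  obtain ⟨a, ha⟩ : ∃ a : 𝒪, I = Ideal.span {a} := ⟨_, (Submodule.IsPrincipal.span_singleton_generator I).symm⟩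
  have ha0 : a ≠ 0 := by
    rintro rfl
    rw [ha, Ideal.span_singleton_zero, Ideal.mem_bot] at hk
    exact hk0 hk
  let f : ↥(teEigen hecke lam) →+ ((𝒪 ⊗[ℤ_[p]] TT) ⧸ (I • (⊤ : Submodule 𝒪 (𝒪 ⊗[ℤ_[p]] TT)))) :=
    ((Submodule.mkQ _).comp (teEigen hecke lam).subtype).toAddMonoidHom
  let g : ↥(teEigen hecke lam) →+
      (↥(teEigen hecke lam) ⧸ (I • (⊤ : Submodule 𝒪 ↥(teEigen hecke lam)))) :=
    (Submodule.mkQ _).toAddMonoidHom
  refine hY.of_cover f ?_ g ?_ ?_ ?_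
  · intro σ e
    show Submodule.Quotient.mk ((teRho gal hecke hcomm lam σ e : ↥(teEigen hecke lam)) :
      𝒪 ⊗[ℤ_[p]] TT) = σ • Submodule.Quotient.mk (e : 𝒪 ⊗[ℤ_[p]] TT)
    rw [alpsQuotAction_mk, alpsBaseChangeRep_apply]
    rfl
  · exact Submodule.mkQ_surjective _
  · intro σ e
    exact (hact σ e).symm
  · intro e he
    have h1 : (e : 𝒪 ⊗[ℤ_[p]] TT) ∈ (I • (⊤ : Submodule 𝒪 (𝒪 ⊗[ℤ_[p]] TT))) :=
      (Submodule.Quotient.mk_eq_zero _).mp he
    rw [ha, Submodule.ideal_span_singleton_smul, Submodule.mem_smul_pointwise_iff_exists] at h1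
    obtain ⟨y, -, hy⟩ := h1
    have hyE : y ∈ teEigen hecke lam := by
      apply teEigen_saturated hecke lam ha0
      rw [hy]
      exact e.2
    have h2 : e = a • (⟨y, hyE⟩ : ↥(teEigen hecke lam)) := Subtype.ext hy.symm
    show Submodule.Quotient.mk e = 0
    rw [Submodule.Quotient.mk_eq_zero, h2, ha]
    exact Submodule.smul_mem_smul (Ideal.mem_span_singleton_self a) Submodule.mem_top

end Eigen

end Fermat.Agent.Alpha
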