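/-
ALPHA / S32 (helper1), package (f): **the Galois representations of S30 are flat at `p ∤ N`**.

For the explicit Tate module package `(TT, alptGal p N, tdmHeckeP p N)` of `J₀(N)` (helper4,
`Tate/Explicit.lean`), a discrete valuation ring `𝒪` over `ℤ_p` and an eigensystem `lam : 𝕋 →+* 𝒪`,
the representation `teRep … lam` on the eigen-lattice has a Hopf order over `ℤ_(p)` on every finite
quotient (`alps_eigen_order`), hence is flat at `p` (`alps_eigen_isFlatAt`).  Inputs: the Kummer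
map `alptKummer : TT → J₀(N)[p^k]` (kernel `p^k TT`, equivariant) and the Hopf orders of
`J₀(N)[p^k]` (`alpm_good`, `alpf_level`).
-/
import Mathlib
import Fermat.Agent.Lib.Alpha.S32.EigenAbs
import Fermat.Agent.Lib.Alpha.Tate.Explicit
import Fermat.Agent.Lib.Alpha.Mod.Final
import Fermat.Agent.Lib.Alpha.Fin.Level

set_option autoImplicit false
set_option linter.unusedSectionVars false
set_option linter.unusedVariables false
set_option linter.style.haveILetI false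
set_option maxSynthPendingDepth 2

open scoped TensorProduct

namespace Fermat.Agent.Alpha

open AlgebraicCurve ModularCurve ModularCurve.Period CongruenceSubgroup Fermat.Agent.T1 IsLocalRing

local notation "Qb" => AlgebraicClosure ℚ
local notation "GQ" => (AlgebraicClosure ℚ ≃ₐ[ℚ] AlgebraicClosure ℚ)

/-- **the Hopf order of `J₀(N)[p^k]` over `ℤ_(p)` for every level `N` prime to `p`** -/
theorem alps_jzero_order (N : ℕ) [NeZero N] (p : ℕ) [Fact p.Prime] (hpN : ¬ p ∣ N) (k : ℕ) :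
    AlphHasOrder p ↥(Submodule.torsionBy ℤ (JZero N) ((p : ℤ) ^ k)) := by
  obtain ⟨e, he, hg, hℓ⟩ := alpf_exists_good N p Fact.out hpN
  haveI : NeZero e := ⟨he⟩
  exact alpf_level N e p k (alpm_good (N * e) p hg hℓ k)

variable (p : ℕ) [Fact p.Prime] (N : ℕ) [NeZero N]

local notation "𝕋" => CuspForm.heckeAlgebra N 2 (∅ : Set ℕ)
set_option quotPrecheck false in
local notation "TT" => ↥(parabolicHoms ℤ_[p] (Gamma0 N) ℤ_[p])

/-- `J₀(N)[p^k]` is finite -/
theorem alps_jzero_finite (k : ℕ) :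
    Finite ↥(Submodule.torsionBy ℤ (JZero N) ((p : ℤ) ^ k)) := by
  have hℓ : (p ^ k : ℕ) ≠ 0 := pow_ne_zero k (Fact.out : p.Prime).ne_zero
  have hcast : (((p ^ k : ℕ) : ℕ) : ℤ) = (p : ℤ) ^ k := by push_cast; rfl
  have := alpf_finite N (p ^ k) hℓ
  rwa [hcast] at this

/-- **the eigen-lattice of the Tate module of `J₀(N)` has a Hopf order modulo every cofinite
ideal** -/
theorem alps_eigen_order (hpN : ¬ p ∣ N)
    (hcomm : ∀ σ t, alptGal p N σ * tdmHeckeP p N t = tdmHeckeP p N t * alptGal p N σ)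
    (hcont : ∀ n : ℕ, ∃ L : IntermediateField ℚ Qb, FiniteDimensional ℚ L ∧
      ∀ σ : GQ, (∀ x ∈ L, σ x = x) →
        ∀ v : TT, ∃ w : TT, alptGal p N σ v - v = (p : ℤ_[p]) ^ n • w)
    {𝒪 : Type} [CommRing 𝒪] [IsDomain 𝒪] [IsDiscreteValuationRing 𝒪] [Algebra ℤ_[p] 𝒪]
    (hp𝒪 : (p : 𝒪) ∈ maximalIdeal 𝒪) (hp0 : (p : 𝒪) ≠ 0) (lam : 𝕋 →+* 𝒪)
    (h2 : Module.finrank 𝒪 ↥(teEigen (tdmHeckeP p N) lam) = 2)
    (I : Ideal 𝒪) (hI : Finite (𝒪 ⧸ I)) :
    letI := alpsLevelAction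
      (teRep (alptGal p N) (tdmHeckeP p N) hcomm hcont hp𝒪 hp0 lam h2) I
    AlphHasOrder p ((teRep (alptGal p N) (tdmHeckeP p N) hcomm hcont hp𝒪 hp0 lam h2).V ⧸
      (I • (⊤ : Submodule 𝒪
        (teRep (alptGal p N) (tdmHeckeP p N) hcomm hcont hp𝒪 hp0 lam h2).V))) := by
  obtain ⟨k, hk⟩ := alps_exists_pow_mem I hp𝒪
  haveI := alps_jzero_finite p N k
  letI : DistribMulAction GQ (↥(teEigen (tdmHeckeP p N) lam) ⧸
      (I • (⊤ : Submodule 𝒪 ↥(teEigen (tdmHeckeP p N) lam)))) :=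
    alpsLevelAction (teRep (alptGal p N) (tdmHeckeP p N) hcomm hcont hp𝒪 hp0 lam h2) I
  exact alps_eigen_order_abs (alptGal p N) (tdmHeckeP p N) hcomm lam
    (alps_jzero_order N p hpN k) I k hk (pow_ne_zero k hp0) (alptKummer p N k)
    (fun σ x => alptKummer_gal p N k σ x)
    (fun x hx => (alptKummer_eq_zero_iff p N k x).mp hx)
    (fun σ e => rfl)

/-- **the Galois representations of S30 are flat at `p ∤ N`** -/
theorem alps_eigen_isFlatAt (hpN : ¬ p ∣ N)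
    (hcomm : ∀ σ t, alptGal p N σ * tdmHeckeP p N t = tdmHeckeP p N t * alptGal p N σ)
    (hcont : ∀ n : ℕ, ∃ L : IntermediateField ℚ Qb, FiniteDimensional ℚ L ∧
      ∀ σ : GQ, (∀ x ∈ L, σ x = x) →
        ∀ v : TT, ∃ w : TT, alptGal p N σ v - v = (p : ℤ_[p]) ^ n • w)
    {𝒪 : Type} [CommRing 𝒪] [IsDomain 𝒪] [IsDiscreteValuationRing 𝒪] [Algebra ℤ_[p] 𝒪]
    [Finite (ResidueField 𝒪)]
    (hp𝒪 : (p : 𝒪) ∈ maximalIdeal 𝒪) (hp0 : (p : 𝒪) ≠ 0) (lam : 𝕋 →+* 𝒪)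
    (h2 : Module.finrank 𝒪 ↥(teEigen (tdmHeckeP p N) lam) = 2) :
    (teRep (alptGal p N) (tdmHeckeP p N) hcomm hcont hp𝒪 hp0 lam h2).IsFlatAt p :=
  alps_isFlatAt_of_order p _ inferInstance
    (fun I hI => alps_eigen_order p N hpN hcomm hcont hp𝒪 hp0 lam h2 I hI)

end Fermat.Agent.Alpha
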