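/-
ALPHA / S32 (helper6), piece (a2): **the discrete-valuation-ring points of a reduced finite flat
local algebra**.

`𝒪` a complete discrete valuation ring of characteristic zero with finite residue field, `T` a
Noetherian local `𝒪`-algebra, finite and free as a module.

* `AlpqPoint 𝒪 T` : a point of `T` — a complete discrete valuation ring `R` of the same kind, finite
  over `𝒪`, with a local `𝒪`-algebra homomorphism `ψ : T → R`;
* `alpq_exists_point` : every prime `𝔭` of `T` with `𝔭 ∩ 𝒪 = 0` is the kernel of a point (integral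
  closure of `𝒪` in the finite extension generated by `T ⧸ 𝔭` inside an algebraic closure);
* `alpq_comap_eq_bot` : minimal primes of a torsion-free algebra meet `𝒪` trivially;
* `alpq_exists_points` : if `T` is reduced, finitely many points are jointly injective.
-/
import Mathlib
import Fermat.Agent.Lib.CFT.Local.Basic

set_option autoImplicit false
set_option linter.unusedSectionVars false
set_option linter.unusedVariables false
set_option linter.style.haveILetI false

open IsLocalRing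

namespace Fermat.Agent.Alpha

/-- a point of the `𝒪`-algebra `T` with values in a complete discrete valuation ring which is
finite over `𝒪` -/
structure AlpqPoint (𝒪 T : Type) [CommRing 𝒪] [CommRing T] [Algebra 𝒪 T] : Type 1 where
  /-- the coefficient ring of the point -/
  R : Type
  [instCommRing : CommRing R]
  [instIsDomain : IsDomain R]
  [instDVR : IsDiscreteValuationRing R]
  [instComplete : IsAdicComplete (IsLocalRing.maximalIdeal R) R]
  [instFiniteRes : Finite (IsLocalRing.ResidueField R)]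
  [instCharZero : CharZero R]
  [instAlgebra : Algebra 𝒪 R]
  [instFinite : Module.Finite 𝒪 R]
  [instLocalHom : IsLocalHom (algebraMap 𝒪 R)]
  inj : Function.Injective (algebraMap 𝒪 R)
  /-- the point -/
  ψ : T →ₐ[𝒪] R
  isLocalHom_ψ : IsLocalHom (ψ : T →+* R)

attribute [instance] AlpqPoint.instCommRing AlpqPoint.instIsDomain AlpqPoint.instDVR
  AlpqPoint.instComplete AlpqPoint.instFiniteRes AlpqPoint.instCharZero AlpqPoint.instAlgebra
  AlpqPoint.instFinite AlpqPoint.instLocalHom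

/-- the residue characteristic is inherited by a point -/
theorem AlpqPoint.natCast_mem {𝒪 T : Type} [CommRing 𝒪] [IsLocalRing 𝒪] [CommRing T] [Algebra 𝒪 T]
    (P : AlpqPoint 𝒪 T) {p : ℕ} (hp : (p : 𝒪) ∈ IsLocalRing.maximalIdeal 𝒪) :
    (p : P.R) ∈ IsLocalRing.maximalIdeal P.R := by
  have h := map_nonunit (algebraMap 𝒪 P.R) _ hp
  rwa [map_natCast] at h

/-- a point composed with a local extension of its coefficient ring is a local homomorphism -/
theorem AlpqPoint.isLocalHom_comp {𝒪 T : Type} [CommRing 𝒪] [CommRing T] [Algebra 𝒪 T]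
    (P : AlpqPoint 𝒪 T) {A : Type} [CommRing A] (f : P.R →+* A) [IsLocalHom f] :
    IsLocalHom (f.comp (P.ψ : T →+* P.R)) :=
  haveI := P.isLocalHom_ψ
  RingHom.isLocalHom_comp f (P.ψ : T →+* P.R)

section Point

variable {𝒪 : Type} [CommRing 𝒪] [IsDomain 𝒪] [IsDiscreteValuationRing 𝒪]
  [IsAdicComplete (IsLocalRing.maximalIdeal 𝒪) 𝒪] [Finite (IsLocalRing.ResidueField 𝒪)]
  [CharZero 𝒪]
  {T : Type} [CommRing T] [IsLocalRing T] [Algebra 𝒪 T] [Module.Finite 𝒪 T]

open Fermat.Agent.CFT.Local in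
/-- **every prime of `T` which meets `𝒪` trivially is the kernel of a point** -/
theorem alpq_exists_point (𝔭 : Ideal T) [h𝔭 : 𝔭.IsPrime]
    (h0 : 𝔭.comap (algebraMap 𝒪 T) = ⊥) :
    ∃ P : AlpqPoint 𝒪 T, RingHom.ker (P.ψ : T →+* P.R) = 𝔭 := by
  classical
  haveI : Algebra.IsIntegral 𝒪 T := Algebra.IsIntegral.of_finite 𝒪 T
  -- the quotient domain
  haveI : Algebra.IsIntegral 𝒪 (T ⧸ 𝔭) := Algebra.IsIntegral.of_finite 𝒪 (T ⧸ 𝔭)
  have hinjB : Function.Injective (algebraMap 𝒪 (T ⧸ 𝔭)) := by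
    rw [RingHom.injective_iff_ker_eq_bot, ← h0]
    ext c
    rw [RingHom.mem_ker, Ideal.mem_comap, IsScalarTower.algebraMap_apply 𝒪 T (T ⧸ 𝔭),
      Ideal.Quotient.algebraMap_eq, Ideal.Quotient.eq_zero_iff_mem]
  -- the algebraic closure of the fraction field
  let K := FractionRing 𝒪
  let Ω := AlgebraicClosure K
  have hinjΩ : Function.Injective (algebraMap 𝒪 Ω) := by
    rw [IsScalarTower.algebraMap_eq 𝒪 K Ω]
    exact (algebraMap K Ω).injective.comp (IsFractionRing.injective 𝒪 K)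
  haveI : Module.IsTorsionFree 𝒪 Ω := by
    rw [Module.isTorsionFree_iff_algebraMap_injective]
    exact hinjΩ
  haveI : Module.IsTorsionFree 𝒪 (T ⧸ 𝔭) := by
    rw [Module.isTorsionFree_iff_algebraMap_injective]
    exact hinjB
  let ψ₀ : (T ⧸ 𝔭) →ₐ[𝒪] Ω := IsAlgClosed.lift
  have hψ₀ : Function.Injective ψ₀ := by
    rw [← RingHom.coe_coe, RingHom.injective_iff_ker_eq_bot]
    apply Ideal.eq_bot_of_comap_eq_bot (R := 𝒪)
    ext c
    rw [Ideal.mem_comap, RingHom.mem_ker, Ideal.mem_bot]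
    show ψ₀ (algebraMap 𝒪 (T ⧸ 𝔭) c) = 0 ↔ c = 0
    rw [ψ₀.commutes]
    exact map_eq_zero_iff _ hinjΩ
  let ψ : T →ₐ[𝒪] Ω := ψ₀.comp (Ideal.Quotient.mkₐ 𝒪 𝔭)
  have hψker : ∀ t : T, ψ t = 0 ↔ t ∈ 𝔭 := by
    intro t
    show ψ₀ (Ideal.Quotient.mk 𝔭 t) = 0 ↔ _
    rw [map_eq_zero_iff _ hψ₀, Ideal.Quotient.eq_zero_iff_mem]
  have hint : ∀ t : T, IsIntegral 𝒪 (ψ t) := fun t =>
    (Algebra.IsIntegral.isIntegral (R := 𝒪) t).map ψ
  -- the finite extension generated by the image
  obtain ⟨s, hs⟩ := (Module.Finite.fg_top : (⊤ : Submodule 𝒪 T).FG)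
  let K'' : IntermediateField K Ω := IntermediateField.adjoin K (ψ '' (s : Set T))
  haveI : Finite (ψ '' (s : Set T)) := (s.finite_toSet.image ψ).to_subtype
  haveI hfd : FiniteDimensional K K'' := IntermediateField.finiteDimensional_adjoin (by
    rintro x ⟨t, -, rfl⟩
    exact (hint t).tower_top)
  have hmem : ∀ t, ψ t ∈ K'' := by
    intro t
    have ht : t ∈ Submodule.span 𝒪 (s : Set T) := by rw [hs]; trivial
    induction ht using Submodule.span_induction with
    | mem t ht => exact IntermediateField.subset_adjoin K _ ⟨t, ht, rfl⟩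
    | zero => rw [map_zero]; exact K''.zero_mem
    | add x y _ _ hx hy => rw [map_add]; exact K''.add_mem hx hy
    | smul c x _ hx =>
      rw [map_smul, Algebra.smul_def, IsScalarTower.algebraMap_apply 𝒪 K Ω]
      exact K''.mul_mem (K''.algebraMap_mem _) hx
  -- the integral closure of `𝒪` in `K''`
  haveI : IsLocalInt 𝒪 :=
    { isAdicComplete := inferInstance
      finite_residueField := inferInstance }
  haveI : CharZero K := charZero_of_injective_algebraMap (IsFractionRing.injective 𝒪 K)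
  haveI : IsLocalInt ↥(integralClosure 𝒪 ↥K'') :=
    IsLocalInt.of_isIntegralClosure 𝒪 K ↥K'' ↥(integralClosure 𝒪 ↥K'')
  have hinjK : Function.Injective (algebraMap 𝒪 ↥K'') := by
    rw [IsScalarTower.algebraMap_eq 𝒪 K ↥K'']
    exact (algebraMap K ↥K'').injective.comp (IsFractionRing.injective 𝒪 K)
  have hinj : Function.Injective (algebraMap 𝒪 ↥(integralClosure 𝒪 ↥K'')) := by
    rw [IsScalarTower.algebraMap_eq 𝒪 ↥(integralClosure 𝒪 ↥K'') ↥K'', RingHom.coe_comp] at hinjK
    exact Function.Injective.of_comp hinjK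
  haveI : FaithfulSMul 𝒪 ↥(integralClosure 𝒪 ↥K'') :=
    (faithfulSMul_iff_algebraMap_injective _ _).mpr hinj
  let ψ' : T →+* ↥K'' := (ψ : T →+* Ω).codRestrict K'' hmem
  haveI : IsScalarTower 𝒪 ↥K'' Ω := IsScalarTower.of_algebraMap_eq fun x => rfl
  have hint' : ∀ t, ψ' t ∈ integralClosure 𝒪 ↥K'' := by
    intro t
    have h1 : IsIntegral 𝒪 (algebraMap ↥K'' Ω (ψ' t)) := hint t
    exact (isIntegral_algebraMap_iff (algebraMap ↥K'' Ω).injective).mp h1
  let ψ'' : T →+* ↥(integralClosure 𝒪 ↥K'') := ψ'.codRestrict (integralClosure 𝒪 ↥K'') hint'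
  have hψ''val : ∀ t : T, ((ψ'' t : ↥K'') : Ω) = ψ t := fun _ => rfl
  let Ψ : T →ₐ[𝒪] ↥(integralClosure 𝒪 ↥K'') :=
    { toRingHom := ψ''
      commutes' := by
        intro c
        apply Subtype.ext
        apply Subtype.ext
        show ψ (algebraMap 𝒪 T c) = algebraMap 𝒪 Ω c
        exact ψ.commutes c }
  have hΨker : ∀ t : T, Ψ t = 0 ↔ t ∈ 𝔭 := by
    intro t
    rw [← hψker t]
    constructor
    · intro h
      have := congrArg (fun z : ↥(integralClosure 𝒪 ↥K'') => ((z : ↥K'') : Ω)) h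
      exact this
    · intro h
      apply Subtype.ext
      apply Subtype.ext
      exact h
  haveI hfin : Module.Finite 𝒪 ↥(integralClosure 𝒪 ↥K'') :=
    IsIntegralClosure.finite 𝒪 K ↥K'' _
  -- the point is a local homomorphism
  have hloc : IsLocalHom (Ψ : T →+* ↥(integralClosure 𝒪 ↥K'')) := by
    letI : Algebra T ↥(integralClosure 𝒪 ↥K'') := (Ψ : T →+* ↥(integralClosure 𝒪 ↥K'')).toAlgebra
    haveI : IsScalarTower 𝒪 T ↥(integralClosure 𝒪 ↥K'') :=
      IsScalarTower.of_algebraMap_eq fun c => (Ψ.commutes c).symm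
    haveI : Algebra.IsIntegral 𝒪 ↥(integralClosure 𝒪 ↥K'') := Algebra.IsIntegral.of_finite 𝒪 _
    haveI : Algebra.IsIntegral T ↥(integralClosure 𝒪 ↥K'') :=
      ⟨fun z => (Algebra.IsIntegral.isIntegral (R := 𝒪) z).tower_top⟩
    have hmax : ((maximalIdeal ↥(integralClosure 𝒪 ↥K'')).comap
        (algebraMap T ↥(integralClosure 𝒪 ↥K''))).IsMaximal :=
      Ideal.isMaximal_comap_of_isIntegral_of_isMaximal _
    have heq := IsLocalRing.eq_maximalIdeal hmax
    refine ⟨fun t ht => ?_⟩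
    by_contra hnu
    have h1 : t ∈ maximalIdeal T := (IsLocalRing.mem_maximalIdeal t).mpr hnu
    rw [← heq, Ideal.mem_comap] at h1
    exact (IsLocalRing.mem_maximalIdeal _).mp h1 ht
  haveI hint𝒪 : Algebra.IsIntegral 𝒪 ↥(integralClosure 𝒪 ↥K'') := Algebra.IsIntegral.of_finite 𝒪 _
  have hloc𝒪 : IsLocalHom (algebraMap 𝒪 ↥(integralClosure 𝒪 ↥K'')) :=
    (algebraMap_isIntegral_iff.mpr hint𝒪).isLocalHom hinj
  refine ⟨{ R := ↥(integralClosure 𝒪 ↥K'')
            instCharZero := charZero_of_injective_algebraMap hinj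
            instLocalHom := hloc𝒪
            inj := hinj
            ψ := Ψ
            isLocalHom_ψ := hloc }, ?_⟩
  ext t
  rw [RingHom.mem_ker]
  exact hΨker t

end Point

section Points

variable {𝒪 : Type} [CommRing 𝒪] [IsDomain 𝒪] [IsDiscreteValuationRing 𝒪]
  [IsAdicComplete (IsLocalRing.maximalIdeal 𝒪) 𝒪] [Finite (IsLocalRing.ResidueField 𝒪)]
  [CharZero 𝒪]
  {T : Type} [CommRing T] [IsLocalRing T] [IsNoetherianRing T] [Algebra 𝒪 T]
  [Module.Finite 𝒪 T] [Module.Free 𝒪 T]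

/-- a minimal prime of a torsion-free algebra meets the base trivially -/
theorem alpq_comap_eq_bot {𝔭 : Ideal T} (h𝔭 : 𝔭 ∈ minimalPrimes T) :
    𝔭.comap (algebraMap 𝒪 T) = ⊥ := by
  rw [eq_bot_iff]
  intro c hc
  rw [Ideal.mem_comap] at hc
  rw [Ideal.mem_bot]
  by_contra hc0
  have hnzd : algebraMap 𝒪 T c ∈ nonZeroDivisors T := by
    rw [mem_nonZeroDivisors_iff_right]
    intro t ht
    rw [mul_comm, ← Algebra.smul_def] at ht
    exact (smul_eq_zero.mp ht).resolve_left hc0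
  exact Set.disjoint_left.mp (Ideal.disjoint_nonZeroDivisors_of_mem_minimalPrimes h𝔭) hc hnzd

/-- **finitely many points of a reduced `T` are jointly injective** -/
theorem alpq_exists_points [IsReduced T] :
    ∃ (n : ℕ) (P : Fin n → AlpqPoint 𝒪 T), ∀ t : T, (∀ i, (P i).ψ t = 0) → t = 0 := by
  classical
  have hfin : (minimalPrimes T).Finite := minimalPrimes.finite_of_isNoetherianRing T
  have hex : ∀ 𝔭 : minimalPrimes T, ∃ P : AlpqPoint 𝒪 T,
      RingHom.ker (P.ψ : T →+* P.R) = 𝔭.1 := by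
    intro 𝔭
    haveI : 𝔭.1.IsPrime := 𝔭.2.1.1
    exact alpq_exists_point 𝔭.1 (alpq_comap_eq_bot 𝔭.2)
  choose Q hQ using hex
  haveI : Finite (minimalPrimes T) := hfin.to_subtype
  obtain ⟨n, ⟨e⟩⟩ := Finite.exists_equiv_fin (minimalPrimes T)
  refine ⟨n, fun i => Q (e.symm i), fun t ht => ?_⟩
  have h1 : t ∈ sInf (minimalPrimes T) := by
    rw [Ideal.mem_sInf]
    intro 𝔭 h𝔭
    have h2 : (Q (e.symm (e ⟨𝔭, h𝔭⟩))).ψ t = 0 := ht (e ⟨𝔭, h𝔭⟩)
    rw [Equiv.symm_apply_apply] at h2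
    have h3 : t ∈ RingHom.ker ((Q ⟨𝔭, h𝔭⟩).ψ : T →+* (Q ⟨𝔭, h𝔭⟩).R) := h2
    rw [hQ] at h3
    exact h3
  have h2 : sInf (minimalPrimes T) = (⊥ : Ideal T).radical := Ideal.sInf_minimalPrimes
  rw [h2] at h1
  have h3 : (⊥ : Ideal T).radical = ⊥ := nilradical_eq_zero T
  rw [h3] at h1
  exact h1

end Points

end Fermat.Agent.Alpha
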