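/-
ALPHA / S32 (helper6), piece (b): **rigidity**.

Two `GaloisRepAdic`s over a Noetherian local ring `A` whose Frobenius elements outside a finite set
of primes have the same characteristic polynomials `X² - a_ℓ X + ℓ`, one of them residually
absolutely irreducible, are isomorphic (Chebotarev in Frobenius-power form + Krull intersection give
the equality of traces; the Gram/Skolem–Noether trace rigidity of `Lib/S53` gives the isomorphism).

* `AlpyFrob S ρ a`            : the Frobenius hypothesis;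
* `alpy_trace_eq`             : equality of all traces;
* `alpy_exists_gram_unit`     : residual absolute irreducibility gives a frame with unit Gram
                                determinant;
* `alpy_equiv_of_trace`       : equal traces + unit Gram determinant ⟹ `GaloisRepAdic.Equiv`;
* `alpy_rigid`                : `ρ.baseChangeAlong φ ≃ ρ'`;
* `alpy_rigid_map`            : the resulting `φ`-semilinear equivariant map `ρ.V → ρ'.V` carrying
                                bases to bases;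
* `alpy_rigid_datum`          : the same for a Hecke–Galois datum and a representation with the
                                Frobenius polynomials of an S30-point.
-/
import Mathlib
import Fermat.Prelude.Def_GaloisRep_Adic
import Fermat.Prelude.Def_CuspForm_HeckeGaloisRepDatum
import Fermat.Agent.Lib.S31.Trace.TraceCong
import Fermat.Agent.Lib.S31.Trace.FrobPow
import Fermat.Agent.Lib.S31.Trace.Unram
import Fermat.Agent.Lib.S53.TraceRigidity
import Fermat.Agent.Lib.S53.GramBurnside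

set_option autoImplicit false
set_option linter.unusedSectionVars false
set_option linter.unusedVariables false
set_option linter.style.haveILetI false

open Polynomial IsLocalRing
open scoped TensorProduct

namespace Fermat.Agent.Alpha

local notation "Qb" => AlgebraicClosure ℚ
local notation "GQb" => (AlgebraicClosure ℚ ≃ₐ[ℚ] AlgebraicClosure ℚ)

open Fermat.Agent.S53Lib (FrameIdx gram gramMat)

section Frob

variable {A : Type} [CommRing A] [IsLocalRing A]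

/-- the Frobenius elements at the primes outside `S` have characteristic polynomial
`X² - a_ℓ X + ℓ` -/
def AlpyFrob (S : Finset ℕ) (ρ : GaloisRepAdic A) (a : ℕ → A) : Prop :=
  ∀ ℓ : ℕ, ℓ.Prime → ℓ ∉ S → ∀ P : ValuationSubring Qb, P.LiesOverPrime ℓ →
    ∀ σ : GQb, P.IsFrobeniusAt σ ℓ →
      LinearMap.charpoly (ρ.ρ σ) = X ^ 2 - C (a ℓ) * X + C ((ℓ : A))

/-- **equality of traces** from equality of Frobenius polynomials -/
theorem alpy_trace_eq [IsNoetherianRing A] (S : Finset ℕ) (ρ₁ ρ₂ : GaloisRepAdic A) (a : ℕ → A)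
    (h₁ : AlpyFrob S ρ₁ a) (h₂ : AlpyFrob S ρ₂ a) (g : GQb) :
    LinearMap.trace A ρ₁.V (ρ₁.ρ g) = LinearMap.trace A ρ₂.V (ρ₂.ρ g) := by
  classical
  haveI := Fermat.Agent.Lib.Helper6.isGalois_rat_algebraicClosure
  have hkrull : ⨅ i, maximalIdeal A ^ i = ⊥ :=
    Ideal.iInf_pow_eq_bot_of_isLocalRing _ (Ideal.IsMaximal.ne_top inferInstance)
  rw [← sub_eq_zero, ← Ideal.mem_bot, ← hkrull, Ideal.mem_iInf]
  intro n
  obtain ⟨L₁, hL₁fin, hL₁⟩ := ρ₁.isAdicContinuous n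
  obtain ⟨L₂, hL₂fin, hL₂⟩ := ρ₂.isAdicContinuous n
  haveI := hL₁fin
  haveI := hL₂fin
  let L₀ : IntermediateField ℚ Qb := L₁ ⊔ L₂
  haveI : FiniteDimensional ℚ L₀ := IntermediateField.finiteDimensional_sup _ _
  set L := IntermediateField.normalClosure ℚ L₀ Qb with hL
  haveI : FiniteDimensional ℚ L := normalClosure.is_finiteDimensional ℚ L₀ Qb
  haveI : Normal ℚ L := normalClosure.normal ℚ L₀ Qb
  have hL₀L : L₀ ≤ L := IntermediateField.le_normalClosure L₀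
  have hL₁L : L₁ ≤ L := le_trans le_sup_left hL₀L
  have hL₂L : L₂ ≤ L := le_trans le_sup_right hL₀L
  obtain ⟨l, hl, hlS, P, φ, hP, hφ, b, hb⟩ := Fermat.Agent.S31T.s31t_exists_frobenius_pow L g S
  have hL₁' : ∀ τ : GQb, (∀ x ∈ L, τ x = x) →
      ∀ v : ρ₁.V, ρ₁.ρ τ v - v ∈ (maximalIdeal A ^ n) • (⊤ : Submodule A ρ₁.V) :=
    fun τ hτ => hL₁ τ fun x hx => hτ x (hL₁L hx)
  have hL₂' : ∀ τ : GQb, (∀ x ∈ L, τ x = x) →
      ∀ v : ρ₂.V, ρ₂.ρ τ v - v ∈ (maximalIdeal A ^ n) • (⊤ : Submodule A ρ₂.V) :=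
    fun τ hτ => hL₂ τ fun x hx => hτ x (hL₂L hx)
  have e1 := Fermat.Agent.S31T.s31t_trace_congr ρ₁ n L hL₁' g φ b hb _ _ (h₁ l hl hlS P hP φ hφ)
  have e2 := Fermat.Agent.S31T.s31t_trace_congr ρ₂ n L hL₂' g φ b hb _ _ (h₂ l hl hlS P hP φ hφ)
  have e3 := (maximalIdeal A ^ n).sub_mem e1 e2
  rwa [sub_sub_sub_cancel_right] at e3

/-- the Frobenius hypothesis is stable under base change -/
theorem AlpyFrob.baseChange {B : Type} [CommRing B] [IsLocalRing B] {S : Finset ℕ}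
    {ρ : GaloisRepAdic A} {a : ℕ → A} (h : AlpyFrob S ρ a) (φ : A →+* B) (hφ : IsLocalHom φ) :
    AlpyFrob S (ρ.baseChangeAlong φ hφ) (fun ℓ => φ (a ℓ)) := by
  intro ℓ hℓ hℓS P hP σ hσ
  letI : Algebra A B := φ.toAlgebra
  show LinearMap.charpoly ((ρ.ρ σ).baseChange B) = _
  rw [LinearMap.charpoly_baseChange, h ℓ hℓ hℓS P hP σ hσ]
  have hφ' : algebraMap A B = φ := rfl
  rw [hφ']
  simp only [Polynomial.map_add, Polynomial.map_sub, Polynomial.map_mul, Polynomial.map_pow,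
    Polynomial.map_X, Polynomial.map_C]
  rw [map_natCast φ ℓ]

/-- traces commute with base change -/
theorem alpy_trace_baseChange {B : Type} [CommRing B] [IsLocalRing B] (ρ : GaloisRepAdic A)
    (φ : A →+* B) (hφ : IsLocalHom φ) (σ : GQb) :
    LinearMap.trace B (ρ.baseChangeAlong φ hφ).V ((ρ.baseChangeAlong φ hφ).ρ σ)
      = φ (LinearMap.trace A ρ.V (ρ.ρ σ)) := by
  letI : Algebra A B := φ.toAlgebra
  show LinearMap.trace B (B ⊗[A] ρ.V) ((ρ.ρ σ).baseChange B) = _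
  rw [LinearMap.trace_baseChange]
  rfl

end Frob

section Gram

variable {A : Type} [CommRing A] [IsLocalRing A]

/-- **residual absolute irreducibility gives a frame with unit Gram determinant** -/
theorem alpy_exists_gram_unit (ρ : GaloisRepAdic A)
    (habs : ρ.residual.IsAbsolutelyIrreducible) :
    ∃ g : FrameIdx → GQb,
      IsUnit (gram (fun σ => LinearMap.trace A ρ.V (ρ.ρ σ)) g).det := by
  classical
  obtain ⟨g, hg⟩ := Fermat.Agent.S53Lib.exists_gram_ne_zero ρ.residual habs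
  refine ⟨g, ?_⟩
  have h1 : gram (fun τ => LinearMap.trace (ResidueField A) ρ.residual.V (ρ.residual.ρ τ)) g
      = gram (fun τ => residue A (LinearMap.trace A ρ.V (ρ.ρ τ))) g := by
    congr 1
    funext τ
    rw [Fermat.Agent.S31T.s31t_trace_residual]
  rw [h1, Fermat.Agent.S53Lib.det_gram_map] at hg
  by_contra hnu
  exact hg ((residue_eq_zero_iff _).mpr hnu)

/-- a unit Gram determinant stays a unit after base change -/
theorem alpy_gram_unit_baseChange {B : Type} [CommRing B] [IsLocalRing B] (ρ : GaloisRepAdic A)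
    (φ : A →+* B) (hφ : IsLocalHom φ) (g : FrameIdx → GQb)
    (hg : IsUnit (gram (fun σ => LinearMap.trace A ρ.V (ρ.ρ σ)) g).det) :
    IsUnit (gram (fun σ => LinearMap.trace B (ρ.baseChangeAlong φ hφ).V
      ((ρ.baseChangeAlong φ hφ).ρ σ)) g).det := by
  have h1 : gram (fun σ => LinearMap.trace B (ρ.baseChangeAlong φ hφ).V
      ((ρ.baseChangeAlong φ hφ).ρ σ)) g
      = gram (fun σ => φ (LinearMap.trace A ρ.V (ρ.ρ σ))) g := by
    congr 1
    funext σ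
    exact alpy_trace_baseChange ρ φ hφ σ
  rw [h1, Fermat.Agent.S53Lib.det_gram_map]
  exact hg.map φ

/-- **equal traces and a unit Gram determinant give an isomorphism** -/
theorem alpy_equiv_of_trace (ρ₁ ρ₂ : GaloisRepAdic A)
    (htr : ∀ σ : GQb, LinearMap.trace A ρ₁.V (ρ₁.ρ σ) = LinearMap.trace A ρ₂.V (ρ₂.ρ σ))
    (g : FrameIdx → GQb)
    (hΓ : IsUnit (gram (fun σ => LinearMap.trace A ρ₁.V (ρ₁.ρ σ)) g).det) :
    Nonempty (GaloisRepAdic.Equiv ρ₁ ρ₂) := by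
  classical
  let b₁ : Module.Basis (Fin 2) A ρ₁.V := Module.finBasisOfFinrankEq A ρ₁.V ρ₁.finrank_eq
  let b₂ : Module.Basis (Fin 2) A ρ₂.V := Module.finBasisOfFinrankEq A ρ₂.V ρ₂.finrank_eq
  let r₁ : GQb →* Matrix (Fin 2) (Fin 2) A :=
    ((LinearMap.toMatrixAlgEquiv b₁ : Module.End A ρ₁.V ≃ₐ[A] Matrix (Fin 2) (Fin 2) A) :
      Module.End A ρ₁.V →* Matrix (Fin 2) (Fin 2) A).comp ρ₁.ρ
  let r₂ : GQb →* Matrix (Fin 2) (Fin 2) A :=
    ((LinearMap.toMatrixAlgEquiv b₂ : Module.End A ρ₂.V ≃ₐ[A] Matrix (Fin 2) (Fin 2) A) :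
      Module.End A ρ₂.V →* Matrix (Fin 2) (Fin 2) A).comp ρ₂.ρ
  have hr₁ : ∀ τ, (r₁ τ).trace = LinearMap.trace A ρ₁.V (ρ₁.ρ τ) := by
    intro τ
    rw [LinearMap.trace_eq_matrix_trace A b₁]
    rfl
  have hr₂ : ∀ τ, (r₂ τ).trace = LinearMap.trace A ρ₂.V (ρ₂.ρ τ) := by
    intro τ
    rw [LinearMap.trace_eq_matrix_trace A b₂]
    rfl
  have hΓ' : IsUnit (gram (fun x => (r₁ x).trace) g).det := by
    have : (fun x => (r₁ x).trace) = fun σ => LinearMap.trace A ρ₁.V (ρ₁.ρ σ) := funext hr₁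
    rw [this]
    exact hΓ
  obtain ⟨u, hu⟩ := Fermat.Agent.S53Lib.trace_rigidity r₁ r₂
    (fun x => by rw [hr₁, hr₂, htr]) g hΓ'
  -- `u r₁ = r₂ u`
  have hu' : ∀ x, (u : Matrix (Fin 2) (Fin 2) A) * r₁ x = r₂ x * (u : Matrix (Fin 2) (Fin 2) A) := by
    intro x
    rw [← hu x, mul_assoc, Units.inv_mul, mul_one]
  have hρ₁ : ∀ x, ρ₁.ρ x = Matrix.toLin b₁ b₁ (r₁ x) := by
    intro x
    show ρ₁.ρ x = Matrix.toLin b₁ b₁ (LinearMap.toMatrix b₁ b₁ (ρ₁.ρ x))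
    rw [Matrix.toLin_toMatrix]
  have hρ₂ : ∀ x, ρ₂.ρ x = Matrix.toLin b₂ b₂ (r₂ x) := by
    intro x
    show ρ₂.ρ x = Matrix.toLin b₂ b₂ (LinearMap.toMatrix b₂ b₂ (ρ₂.ρ x))
    rw [Matrix.toLin_toMatrix]
  let f : ρ₁.V →ₗ[A] ρ₂.V := Matrix.toLin b₁ b₂ (u : Matrix (Fin 2) (Fin 2) A)
  let f' : ρ₂.V →ₗ[A] ρ₁.V :=
    Matrix.toLin b₂ b₁ ((u⁻¹ : (Matrix (Fin 2) (Fin 2) A)ˣ) : Matrix (Fin 2) (Fin 2) A)
  have hff' : f ∘ₗ f' = LinearMap.id := by
    rw [← Matrix.toLin_mul b₂ b₁ b₂, Units.mul_inv, Matrix.toLin_one]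
  have hf'f : f' ∘ₗ f = LinearMap.id := by
    rw [← Matrix.toLin_mul b₁ b₂ b₁, Units.inv_mul, Matrix.toLin_one]
  refine ⟨⟨LinearEquiv.ofLinearMap f f' hff' hf'f, fun σ x => ?_⟩⟩
  show f (ρ₁.ρ σ x) = ρ₂.ρ σ (f x)
  have h1 : f ∘ₗ (ρ₁.ρ σ) = (ρ₂.ρ σ) ∘ₗ f := by
    rw [hρ₁ σ, hρ₂ σ, ← Matrix.toLin_mul b₁ b₁ b₂, ← Matrix.toLin_mul b₁ b₂ b₂, hu' σ]
  exact LinearMap.congr_fun h1 x

end Gram

section Rigid

variable {T : Type} [CommRing T] [IsLocalRing T]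
variable {A : Type} [CommRing A] [IsLocalRing A] [IsNoetherianRing A]

/-- **rigidity**: a residually absolutely irreducible representation is determined, after any
base change, by its Frobenius polynomials -/
theorem alpy_rigid (S : Finset ℕ) (ρ : GaloisRepAdic T)
    (habs : ρ.residual.IsAbsolutelyIrreducible) (a : ℕ → T) (hρ : AlpyFrob S ρ a)
    (φ : T →+* A) (hφ : IsLocalHom φ) (ρ' : GaloisRepAdic A)
    (hρ' : AlpyFrob S ρ' (fun ℓ => φ (a ℓ))) :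
    Nonempty (GaloisRepAdic.Equiv (ρ.baseChangeAlong φ hφ) ρ') := by
  obtain ⟨g, hg⟩ := alpy_exists_gram_unit ρ habs
  exact alpy_equiv_of_trace _ _
    (alpy_trace_eq S _ _ _ (hρ.baseChange φ hφ) hρ') g (alpy_gram_unit_baseChange ρ φ hφ g hg)

/-- **rigidity, as a semilinear map**: a `φ`-semilinear `G_ℚ`-equivariant map `ρ.V → ρ'.V` which
carries every basis of `ρ.V` to a basis of `ρ'.V` -/
theorem alpy_rigid_map (S : Finset ℕ) (ρ : GaloisRepAdic T)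
    (habs : ρ.residual.IsAbsolutelyIrreducible) (a : ℕ → T) (hρ : AlpyFrob S ρ a)
    (φ : T →+* A) (hφ : IsLocalHom φ) (ρ' : GaloisRepAdic A)
    (hρ' : AlpyFrob S ρ' (fun ℓ => φ (a ℓ))) :
    ∃ j : ρ.V →+ ρ'.V, (∀ (t : T) (v : ρ.V), j (t • v) = φ t • j v) ∧
      (∀ (σ : GQb) (v : ρ.V), j (ρ.ρ σ v) = ρ'.ρ σ (j v)) ∧
      ∀ (ι : Type) [Fintype ι] (b : Module.Basis ι T ρ.V), ∃ b' : Module.Basis ι A ρ'.V,
        (∀ i, b' i = j (b i)) ∧ ∀ (v : ρ.V) (i : ι), b'.repr (j v) i = φ (b.repr v i) := by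
  classical
  obtain ⟨e⟩ := alpy_rigid S ρ habs a hρ φ hφ ρ' hρ'
  letI : Algebra T A := φ.toAlgebra
  have hφ' : ∀ t : T, algebraMap T A t = φ t := fun _ => rfl
  let E : (A ⊗[T] ρ.V) ≃ₗ[A] ρ'.V := e.toLinearEquiv
  have hE : ∀ (σ : GQb) (x : A ⊗[T] ρ.V), E ((ρ.ρ σ).baseChange A x) = ρ'.ρ σ (E x) :=
    fun σ x => e.map_apply σ x
  let j : ρ.V →+ ρ'.V :=
    { toFun := fun v => E ((1 : A) ⊗ₜ[T] v)
      map_zero' := by rw [TensorProduct.tmul_zero, map_zero]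
      map_add' := fun v w => by rw [TensorProduct.tmul_add, map_add] }
  have hj : ∀ v, j v = E ((1 : A) ⊗ₜ[T] v) := fun _ => rfl
  refine ⟨j, fun t v => ?_, fun σ v => ?_, fun ι _ b => ?_⟩
  · rw [hj, hj, TensorProduct.tmul_smul, ← algebraMap_smul A t, hφ', map_smul]
  · rw [hj, hj, ← hE, LinearMap.baseChange_tmul]
  · refine ⟨(b.baseChange A).map E, fun i => ?_, fun v i => ?_⟩
    · rw [Module.Basis.map_apply, Module.Basis.baseChange_apply, hj]
    · rw [hj, Module.Basis.map_repr, LinearEquiv.trans_apply, LinearEquiv.symm_apply_apply,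
        Module.Basis.baseChange_repr_tmul, Algebra.smul_def, mul_one, hφ']

end Rigid

section Datum

open CuspForm

variable {N : ℕ} [NeZero N] {S : Finset ℕ}
  {𝒪 : Type} [CommRing 𝒪] [IsDomain 𝒪] [IsDiscreteValuationRing 𝒪]
  [IsAdicComplete (IsLocalRing.maximalIdeal 𝒪) 𝒪]
  {θ : CuspForm.heckeAlgebra N 2 (↑S : Set ℕ) →+* IsLocalRing.ResidueField 𝒪}
  {T : Type} [CommRing T] [IsLocalRing T] [IsNoetherianRing T]
  [IsAdicComplete (IsLocalRing.maximalIdeal T) T] [Algebra 𝒪 T] [IsLocalHom (algebraMap 𝒪 T)]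
  [Module.Finite 𝒪 T] [Module.Free 𝒪 T]

open Classical in
/-- the Hecke eigenvalues `π(T_ℓ)` of a datum, as a function of `ℓ` (zero at the bad `ℓ`) -/
noncomputable def alpyHecke (H : CuspForm.HeckeGaloisRepDatum N (↑S : Set ℕ) 𝒪 θ T) (ℓ : ℕ) : T :=
  if h : ℓ.Prime ∧ ¬ ℓ ∣ N ∧ ℓ ∉ (↑S : Set ℕ) then
    H.π (CuspForm.heckeAlgebra.T h.1 h.2.1 h.2.2) else 0

theorem alpyHecke_eq (H : CuspForm.HeckeGaloisRepDatum N (↑S : Set ℕ) 𝒪 θ T) {ℓ : ℕ}
    (hℓ : ℓ.Prime) (hℓN : ¬ ℓ ∣ N) (hℓS : ℓ ∉ (↑S : Set ℕ)) :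
    alpyHecke H ℓ = H.π (CuspForm.heckeAlgebra.T hℓ hℓN hℓS) := by
  unfold alpyHecke
  rw [dif_pos ⟨hℓ, hℓN, hℓS⟩]

/-- the Frobenius hypothesis for the representation of a datum -/
theorem alpy_frob_datum (hNS : ∀ q : ℕ, q.Prime → q ∣ N → q ∈ S)
    (H : CuspForm.HeckeGaloisRepDatum N (↑S : Set ℕ) 𝒪 θ T) :
    AlpyFrob S H.ρ (alpyHecke H) := by
  intro ℓ hℓ hℓS P hP σ hσ
  have hℓN : ¬ ℓ ∣ N := fun h => hℓS (hNS ℓ hℓ h)
  have hℓS' : ℓ ∉ (↑S : Set ℕ) := hℓS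
  rw [alpyHecke_eq H hℓ hℓN hℓS']
  exact H.charpoly_frob ℓ hℓ hℓN hℓS' P hP σ hσ

/-- **rigidity for a Hecke–Galois datum**: a representation `ρ'` over `A` with the Frobenius
polynomials of the point `φ : T → A` receives a `φ`-semilinear equivariant map from `H.ρ.V`
carrying bases to bases -/
theorem alpy_rigid_datum {A : Type} [CommRing A] [IsLocalRing A] [IsNoetherianRing A]
    (hNS : ∀ q : ℕ, q.Prime → q ∣ N → q ∈ S)
    (H : CuspForm.HeckeGaloisRepDatum N (↑S : Set ℕ) 𝒪 θ T)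
    (φ : T →+* A) (hφ : IsLocalHom φ) (ρ' : GaloisRepAdic A)
    (hρ' : ∀ (ℓ : ℕ) (hℓ : ℓ.Prime) (hℓN : ¬ ℓ ∣ N) (hℓS : ℓ ∉ (↑S : Set ℕ)),
      ∀ P : ValuationSubring Qb, P.LiesOverPrime ℓ →
        ∀ σ : GQb, P.IsFrobeniusAt σ ℓ →
          LinearMap.charpoly (ρ'.ρ σ) =
            X ^ 2 - C (φ (H.π (CuspForm.heckeAlgebra.T hℓ hℓN hℓS))) * X + C ((ℓ : A))) :
    ∃ j : H.ρ.V →+ ρ'.V, (∀ (t : T) (v : H.ρ.V), j (t • v) = φ t • j v) ∧
      (∀ (σ : GQb) (v : H.ρ.V), j (H.ρ.ρ σ v) = ρ'.ρ σ (j v)) ∧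
      ∀ (ι : Type) [Fintype ι] (b : Module.Basis ι T H.ρ.V), ∃ b' : Module.Basis ι A ρ'.V,
        (∀ i, b' i = j (b i)) ∧ ∀ (v : H.ρ.V) (i : ι), b'.repr (j v) i = φ (b.repr v i) := by
  refine alpy_rigid_map S H.ρ H.residual_absIrr (alpyHecke H) (alpy_frob_datum hNS H) φ hφ ρ' ?_
  intro ℓ hℓ hℓS P hP σ hσ
  have hℓN : ¬ ℓ ∣ N := fun h => hℓS (hNS ℓ hℓ h)
  have hℓS' : ℓ ∉ (↑S : Set ℕ) := hℓS
  show LinearMap.charpoly (ρ'.ρ σ) = X ^ 2 - C (φ (alpyHecke H ℓ)) * X + C ((ℓ : A))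
  rw [alpyHecke_eq H hℓ hℓN hℓS']
  exact hρ' ℓ hℓ hℓN hℓS' P hP σ hσ

end Datum

end Fermat.Agent.Alpha
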