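/-
ALPHA / S32 (helper4): **the per-point package**.

* `alpp_charpoly` : the Frobenius polynomials of the explicit representation
  `teRep (alptGal p N) (tdmHeckeP p N) … lam` on the `lam`-eigen-lattice of the Tate module of `J₀(N)`;
* `alpp_exists_rep` : for an eigensystem `χ` of the Hecke algebra away from `S` with values in a complete
  discrete valuation ring `𝒪'`, a finite extension `𝒪''` and an eigensystem `lam` of the full Hecke
  algebra extending `χ`, with the Frobenius polynomials of the explicit representation.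
-/
import Mathlib
import Fermat.Agent.Lib.Alpha.Tate.Explicit
import Fermat.Agent.Lib.T1.Asm.S30Skeleton
import Fermat.Agent.Lib.T1.Asm.Res.Extension
import Fermat.Agent.Lib.Alpha.S32.Rigid
import Fermat.Agent.Lib.Alpha.S32.Points
import Fermat.Agent.Lib.Alpha.S32.Flat
import Fermat.Agent.Lib.Alpha.S32.Eigen
import Fermat.Agent.Lib.S32.End

set_option autoImplicit false
set_option linter.unusedSectionVars false
set_option linter.unusedVariables false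
set_option linter.style.haveILetI false

namespace Fermat.Agent.Alpha

open Fermat.Agent.S24Lib Fermat.Agent.T1 IsLocalRing Polynomial

local notation "Kbar" => AlgebraicClosure ℚ
local notation "GQ" => (AlgebraicClosure ℚ ≃ₐ[ℚ] AlgebraicClosure ℚ)

noncomputable section

section Charpoly

variable (p : ℕ) [hp : Fact p.Prime] (N : ℕ) [NeZero N]

local notation "𝕋" => CuspForm.heckeAlgebra N 2 (∅ : Set ℕ)

variable {𝒪 : Type} [CommRing 𝒪] [IsDomain 𝒪] [IsDiscreteValuationRing 𝒪] [CharZero 𝒪]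
  [Algebra ℤ_[p] 𝒪]

/-- the explicit representation attached to an eigensystem of the full Hecke algebra -/
abbrev alppRep (hp𝒪 : (p : 𝒪) ∈ maximalIdeal 𝒪) (hp0 : (p : 𝒪) ≠ 0) (lam : 𝕋 →+* 𝒪)
    (h2 : Module.finrank 𝒪 ↥(teEigen (tdmHeckeP p N) lam) = 2) : GaloisRepAdic 𝒪 :=
  teRep (alptGal p N) (tdmHeckeP p N) (alpt_package p N).1 (alpt_package p N).2.1 hp𝒪 hp0 lam h2

/-- the rank of the eigen-lattice -/
theorem alpp_finrank (lam : 𝕋 →+* 𝒪) :
    Module.finrank 𝒪 ↥(teEigen (tdmHeckeP p N) lam) = 2 :=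
  ((alpt_package p N).2.2.2.2 𝒪 lam).1

/-- **the Frobenius polynomials of the explicit representation** -/
theorem alpp_charpoly (S : Finset ℕ) (hpS : p ∈ S) (hNS : ∀ q : ℕ, q.Prime → q ∣ N → q ∈ S)
    (hp𝒪 : (p : 𝒪) ∈ maximalIdeal 𝒪) (hp0 : (p : 𝒪) ≠ 0) (lam : 𝕋 →+* 𝒪)
    (h2 : Module.finrank 𝒪 ↥(teEigen (tdmHeckeP p N) lam) = 2)
    (l : ℕ) (hl : l.Prime) (hlN : ¬ l ∣ N) (hlS : l ∉ S) (A : ValuationSubring Kbar)
    (hA : A.LiesOverPrime l) (σ : GQ) (hσ : A.IsFrobeniusAt σ l) :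
    LinearMap.charpoly ((alppRep p N hp𝒪 hp0 lam h2).ρ σ) =
      X ^ 2 - C (lam (CuspForm.heckeAlgebra.T hl hlN (Set.notMem_empty l))) * X + C (l : 𝒪) := by
  obtain ⟨hcomm, hcont, hunr, hES, h56⟩ := alpt_package p N
  obtain ⟨-, c, hcv⟩ := h56 𝒪 lam
  have hlp : ∀ l : ℕ, l.Prime → l ∉ S → ¬ l ∣ N ∧ l ≠ p := fun l hl hlS =>
    ⟨fun h => hlS (hNS l hl h), fun h => hlS (h ▸ hpS)⟩
  have hq : ∀ (l : ℕ) (hl : l.Prime) (hlS : l ∉ S), ∀ A : ValuationSubring Kbar,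
      A.LiesOverPrime l → ∀ φ : GQ, A.IsFrobeniusAt φ l →
        (alppRep p N hp𝒪 hp0 lam h2).ρ φ * (alppRep p N hp𝒪 hp0 lam h2).ρ φ -
          lam (CuspForm.heckeAlgebra.T hl (hlp l hl hlS).1 (Set.notMem_empty l)) •
            (alppRep p N hp𝒪 hp0 lam h2).ρ φ +
          (l : 𝒪) • (1 : Module.End 𝒪 (alppRep p N hp𝒪 hp0 lam h2).V) = 0 :=
    fun l hl hlS A hA φ hφ =>
      teRep_quadratic (alptGal p N) (tdmHeckeP p N) hcomm hcont hp𝒪 hp0 lam h2 φ _ l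
        (hES l hl (hlp l hl hlS).1 (hlp l hl hlS).2 A hA φ hφ)
  obtain ⟨-, hchar⟩ := te_charpoly_of_quadratic p (alppRep p N hp𝒪 hp0 lam h2) S hp𝒪 hpS
    (fun l hl hlS A hA φ hφ => ⟨_, hq l hl hlS A hA φ hφ⟩)
    ⟨c, teRep_not_scalar (alptGal p N) (tdmHeckeP p N) hcomm hcont hp𝒪 hp0 lam h2 c hcv⟩
  exact hchar l hl hlS A hA σ hσ _ (hq l hl hlS A hA σ hσ)

end Charpoly

section EmbGeneric

open Fermat.Agent.S32L

/-- quotients of a discrete valuation ring with finite residue field by non-zero principal ideals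
are finite -/
theorem alpp_finite_quot {A : Type} [CommRing A] [IsDomain A] [IsDiscreteValuationRing A]
    [Finite (ResidueField A)] (a : A) (ha : a ≠ 0) : Finite (A ⧸ Ideal.span {a}) := by
  obtain ⟨ϖ, hϖ⟩ := IsDiscreteValuationRing.exists_irreducible A
  have hne : Ideal.span {a} ≠ ⊥ := by
    rw [Ne, Ideal.span_singleton_eq_bot]
    exact ha
  obtain ⟨n, hn⟩ := IsDiscreteValuationRing.ideal_eq_span_pow_irreducible hne hϖ
  rw [hn, ← Ideal.span_singleton_pow, ← hϖ.maximalIdeal_eq]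
  haveI : Finite (A ⧸ maximalIdeal A) := ‹Finite (ResidueField A)›
  exact Ideal.finite_quotient_pow (IsNoetherian.noetherian _) n

variable {p : ℕ} [Fact p.Prime] {T : Type} [CommRing T] [IsLocalRing T]
  {A : Type} [CommRing A] [IsLocalRing A]

/-- **an embedding from a semilinear equivariant map**: a `φ`-semilinear equivariant map
`ρ.V → ρ'.V` with kernel `≤ (ker φ) ρ.V`, `φ : T → A` finite, into a representation all of whose
quotients modulo `p ^ m` have Hopf orders, is an `S32Emb` for the ideal `ker φ` -/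
theorem alpp_emb_of_map (ρ : GaloisRepAdic T) (ρ' : GaloisRepAdic A) (φ : T →+* A)
    (hfin : φ.Finite) (j : ρ.V →+ ρ'.V) (hj : ∀ (t : T) (v : ρ.V), j (t • v) = φ t • j v)
    (hjσ : ∀ (σ : GQ) (v : ρ.V), j (ρ.ρ σ v) = ρ'.ρ σ (j v))
    (hker : ∀ v, j v = 0 → v ∈ RingHom.ker φ • (⊤ : Submodule T ρ.V))
    (hord : ∀ m : ℕ, Finite (A ⧸ Ideal.span {(p : A) ^ m}) ∧
      (letI := alpsLevelAction ρ' (Ideal.span {(p : A) ^ m});
        AlphHasOrder p (ρ'.V ⧸ (Ideal.span {(p : A) ^ m} • (⊤ : Submodule A ρ'.V))))) :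
    S32Emb p ρ.ρ (RingHom.ker φ) := by
  classical
  letI : Module T ρ'.V := Module.compHom ρ'.V φ
  haveI : Module.Finite T ρ'.V := by
    letI : Algebra T A := φ.toAlgebra
    haveI : IsScalarTower T A ρ'.V := ⟨fun t a x => by
      show (φ t * a) • x = φ t • (a • x)
      rw [mul_smul]⟩
    haveI : Module.Finite T A := hfin
    exact Module.Finite.trans A ρ'.V
  letI : DistribMulAction GQ ρ'.V := s32Act ρ'.ρ
  refine ⟨ρ'.V, inferInstance, inferInstance, inferInstance, inferInstance, ?_, ?_⟩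
  · apply S32Adm.of_ker
    intro m
    obtain ⟨hfinm, hordm⟩ := hord m
    letI := alpsLevelAction ρ' (Ideal.span {(p : A) ^ m})
    haveI := hfinm
    refine ⟨ρ'.V ⧸ (Ideal.span {(p : A) ^ m} • (⊤ : Submodule A ρ'.V)), inferInstance,
      inferInstance, alps_finite_quot ρ' _, hordm, (Submodule.mkQ _).toAddMonoidHom,
      fun σ x => rfl, ?_⟩
    intro x hx
    have h1 : x ∈ Ideal.span {(p : A) ^ m} • (⊤ : Submodule A ρ'.V) :=
      (Submodule.Quotient.mk_eq_zero _).1 hx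
    rw [Submodule.ideal_span_singleton_smul] at h1
    obtain ⟨y, -, rfl⟩ := h1
    refine ⟨y, ?_⟩
    show (p ^ m) • y = ((p : A) ^ m) • y
    rw [← Nat.cast_pow, Nat.cast_smul_eq_nsmul]
  · exact ⟨{ toFun := j, map_add' := map_add j, map_smul' := fun t v => hj t v },
      fun σ v => hjσ σ v, fun v hv => hker v hv⟩

end EmbGeneric

section EmbPoint

open Fermat.Agent.S32L

/-- the statement of package (f): the explicit representations have Hopf orders modulo every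
finite-index ideal -/
def AlppFlat (p : ℕ) [Fact p.Prime] (N : ℕ) [NeZero N] : Prop :=
  ∀ (A : Type) [CommRing A] [IsDomain A] [IsDiscreteValuationRing A] [CharZero A]
    [Algebra ℤ_[p] A] [Finite (ResidueField A)] (hpA : (p : A) ∈ maximalIdeal A)
    (hp0 : (p : A) ≠ 0) (lam : CuspForm.heckeAlgebra N 2 (∅ : Set ℕ) →+* A)
    (h2 : Module.finrank A ↥(teEigen (tdmHeckeP p N) lam) = 2) (I : Ideal A) [Finite (A ⧸ I)],
    letI := alpsLevelAction (alppRep p N hpA hp0 lam h2) I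
    AlphHasOrder p ((alppRep p N hpA hp0 lam h2).V ⧸
      (I • (⊤ : Submodule A (alppRep p N hpA hp0 lam h2).V)))

variable {p : ℕ} [Fact p.Prime] {N : ℕ} [NeZero N] {S : Finset ℕ}
  {𝒪 : Type} [CommRing 𝒪] [IsDomain 𝒪] [IsDiscreteValuationRing 𝒪]
  [IsAdicComplete (IsLocalRing.maximalIdeal 𝒪) 𝒪]
  {θ : CuspForm.heckeAlgebra N 2 (↑S : Set ℕ) →+* IsLocalRing.ResidueField 𝒪}
  {T : Type} [CommRing T] [IsLocalRing T] [IsNoetherianRing T]
  [IsAdicComplete (IsLocalRing.maximalIdeal T) T] [Algebra 𝒪 T] [IsLocalHom (algebraMap 𝒪 T)]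
  [Module.Finite 𝒪 T] [Module.Free 𝒪 T]

/-- **the embedding attached to a point**: for every point `P` of `T`, `H.ρ.V` maps equivariantly to an
admissible finite `T`-module with kernel `(ker P.ψ) H.ρ.V` -/
theorem alpp_emb_point (hF : AlppFlat p N) (hp𝒪 : (p : 𝒪) ∈ IsLocalRing.maximalIdeal 𝒪)
    (hpS : p ∈ S) (hNS : ∀ q : ℕ, q.Prime → q ∣ N → q ∈ S)
    (H : CuspForm.HeckeGaloisRepDatum N (↑S : Set ℕ) 𝒪 θ T) (P : AlpqPoint 𝒪 T) :
    S32Emb p H.ρ.ρ (RingHom.ker (P.ψ : T →+* P.R)) := by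
  classical
  have hpR : (p : P.R) ∈ maximalIdeal P.R := P.natCast_mem hp𝒪
  obtain ⟨𝒪'', i1, i2, i3, i4, i5, i6, i7, i8, i9, hinj, lam, hlam⟩ :=
    ter_extension p N (↑S : Set ℕ) P.R hpR ((P.ψ : T →+* P.R).comp H.π)
  have hp'' : (p : 𝒪'') ∈ maximalIdeal 𝒪'' := by
    have h := map_nonunit (algebraMap P.R 𝒪'') _ hpR
    rwa [map_natCast] at h
  have hp0 : (p : 𝒪'') ≠ 0 := Nat.cast_ne_zero.2 (Fact.out : p.Prime).ne_zero
  letI : Algebra ℤ_[p] 𝒪'' := tePadicAlgebra p 𝒪'' hp''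
  have h2 := alpp_finrank p N lam
  set ρ' := alppRep p N hp'' hp0 lam h2 with hρ'
  set φ : T →+* 𝒪'' := (algebraMap P.R 𝒪'').comp (P.ψ : T →+* P.R) with hφdef
  have hφ : IsLocalHom φ := P.isLocalHom_comp (algebraMap P.R 𝒪'')
  have hker : RingHom.ker φ = RingHom.ker (P.ψ : T →+* P.R) := by
    ext t
    rw [RingHom.mem_ker, RingHom.mem_ker]
    show algebraMap P.R 𝒪'' (P.ψ t) = 0 ↔ _
    rw [map_eq_zero_iff _ hinj]
    rfl
  -- the Frobenius polynomials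
  have hchar : ∀ (ℓ : ℕ) (hℓ : ℓ.Prime) (hℓN : ¬ ℓ ∣ N) (hℓS : ℓ ∉ (↑S : Set ℕ)),
      ∀ A : ValuationSubring Kbar, A.LiesOverPrime ℓ →
        ∀ σ : GQ, A.IsFrobeniusAt σ ℓ →
          LinearMap.charpoly (ρ'.ρ σ) =
            X ^ 2 - C (φ (H.π (CuspForm.heckeAlgebra.T hℓ hℓN hℓS))) * X + C ((ℓ : 𝒪'')) := by
    intro ℓ hℓ hℓN hℓS A hA σ hσ
    have hℓS' : ℓ ∉ S := hℓS
    rw [alpp_charpoly p N S hpS hNS hp'' hp0 lam h2 ℓ hℓ hℓN hℓS' A hA σ hσ]
    have h3 := hlam (CuspForm.heckeAlgebra.T hℓ hℓN hℓS)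
    have h4 : φ (H.π (CuspForm.heckeAlgebra.T hℓ hℓN hℓS)) =
        algebraMap P.R 𝒪'' (((P.ψ : T →+* P.R).comp H.π) (CuspForm.heckeAlgebra.T hℓ hℓN hℓS)) :=
      rfl
    rw [h4, ← h3]
    rfl
  obtain ⟨j, hj, hjσ, hb⟩ := alpy_rigid_datum hNS H φ hφ ρ' hchar
  -- finiteness of `φ`
  have hfin : φ.Finite := by
    have h1 : (algebraMap P.R 𝒪'').Finite := RingHom.finite_algebraMap.2 inferInstance
    have h2 : (P.ψ : T →+* P.R).Finite := by
      have h3 : ((P.ψ : T →+* P.R).comp (algebraMap 𝒪 T)).Finite := by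
        have h4 : (P.ψ : T →+* P.R).comp (algebraMap 𝒪 T) = algebraMap 𝒪 P.R :=
          P.ψ.comp_algebraMap
        rw [h4]
        exact RingHom.finite_algebraMap.2 inferInstance
      exact RingHom.Finite.of_comp_finite h3
    exact RingHom.Finite.comp h1 h2
  rw [← hker]
  refine alpp_emb_of_map H.ρ ρ' φ hfin j hj hjσ ?_ ?_
  · intro v hv
    let b : Module.Basis (Fin 2) T H.ρ.V := Module.finBasisOfFinrankEq T H.ρ.V H.ρ.finrank_eq
    obtain ⟨b', -, hb'⟩ := hb (Fin 2) b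
    rw [s32_mem_smul_top_iff b]
    intro i
    rw [RingHom.mem_ker, ← hb' v i, hv, map_zero, Finsupp.zero_apply]
  · intro m
    haveI : Finite (𝒪'' ⧸ Ideal.span {(p : 𝒪'') ^ m}) :=
      alpp_finite_quot _ (pow_ne_zero m hp0)
    exact ⟨inferInstance, hF 𝒪'' hp'' hp0 lam h2 (Ideal.span {(p : 𝒪'') ^ m})⟩

/-- package (f) (helper1's `alps_eigen_order`) in the form used here -/
theorem alpp_flat (p : ℕ) [Fact p.Prime] (N : ℕ) [NeZero N] (hpN : ¬ p ∣ N) : AlppFlat p N := by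
  intro A _ _ _ _ _ _ hpA hp0 lam h2 I hI
  exact alps_eigen_order p N hpN (alpt_package p N).1 (alpt_package p N).2.1 hpA hp0 lam h2 I hI

/-- **the embedding attached to a point**, unconditionally (`p ∤ N`) -/
theorem alpp_emb_point' (hp𝒪 : (p : 𝒪) ∈ IsLocalRing.maximalIdeal 𝒪) (hpN : ¬ p ∣ N)
    (hpS : p ∈ S) (hNS : ∀ q : ℕ, q.Prime → q ∣ N → q ∈ S)
    (H : CuspForm.HeckeGaloisRepDatum N (↑S : Set ℕ) 𝒪 θ T) (P : AlpqPoint 𝒪 T) :
    S32Emb p H.ρ.ρ (RingHom.ker (P.ψ : T →+* P.R)) :=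
  alpp_emb_point (alpp_flat p N hpN) hp𝒪 hpS hNS H P

/-- **S30⁺ for a point** (package (g) of the S32 brief): the conclusion of S30 for the eigensystem
`P.ψ ∘ H.π`, together with Hopf orders of the representation modulo `p ^ m` -/
theorem alpp_point (hp𝒪 : (p : 𝒪) ∈ IsLocalRing.maximalIdeal 𝒪) (hpN : ¬ p ∣ N)
    (hpS : p ∈ S) (hNS : ∀ q : ℕ, q.Prime → q ∣ N → q ∈ S)
    (H : CuspForm.HeckeGaloisRepDatum N (↑S : Set ℕ) 𝒪 θ T) (P : AlpqPoint 𝒪 T) :
    ∃ (A : Type) (_ : CommRing A) (_ : IsDomain A) (_ : IsDiscreteValuationRing A)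
      (_ : IsAdicComplete (maximalIdeal A) A) (_ : Finite (ResidueField A)) (_ : CharZero A)
      (_ : Algebra P.R A) (_ : Module.Finite P.R A) (_ : IsLocalHom (algebraMap P.R A)),
      Function.Injective (algebraMap P.R A) ∧ ∃ ρ' : GaloisRepAdic A,
      (∀ (ℓ : ℕ) (hℓ : ℓ.Prime) (hℓN : ¬ ℓ ∣ N) (hℓS : ℓ ∉ (↑S : Set ℕ)),
        ∀ Pv : ValuationSubring Kbar, Pv.LiesOverPrime ℓ → ∀ σ : GQ, Pv.IsFrobeniusAt σ ℓ →
        LinearMap.charpoly (ρ'.ρ σ) =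
          X ^ 2 - C (algebraMap P.R A (P.ψ (H.π (CuspForm.heckeAlgebra.T hℓ hℓN hℓS)))) * X
            + C ((ℓ : A))) ∧
      ∀ m : ℕ, Finite (ρ'.V ⧸ (Ideal.span {(p : A) ^ m} • (⊤ : Submodule A ρ'.V))) ∧
        (letI := alpsLevelAction ρ' (Ideal.span {(p : A) ^ m});
          AlphHasOrder p (ρ'.V ⧸ (Ideal.span {(p : A) ^ m} • (⊤ : Submodule A ρ'.V)))) := by
  classical
  have hpR : (p : P.R) ∈ maximalIdeal P.R := P.natCast_mem hp𝒪
  obtain ⟨𝒪'', i1, i2, i3, i4, i5, i6, i7, i8, i9, hinj, lam, hlam⟩ :=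
    ter_extension p N (↑S : Set ℕ) P.R hpR ((P.ψ : T →+* P.R).comp H.π)
  have hp'' : (p : 𝒪'') ∈ maximalIdeal 𝒪'' := by
    have h := map_nonunit (algebraMap P.R 𝒪'') _ hpR
    rwa [map_natCast] at h
  have hp0 : (p : 𝒪'') ≠ 0 := Nat.cast_ne_zero.2 (Fact.out : p.Prime).ne_zero
  letI : Algebra ℤ_[p] 𝒪'' := tePadicAlgebra p 𝒪'' hp''
  have h2 := alpp_finrank p N lam
  refine ⟨𝒪'', i1, i2, i3, i4, i5, i6, i7, i8, i9, hinj, alppRep p N hp'' hp0 lam h2, ?_, ?_⟩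
  · intro ℓ hℓ hℓN hℓS A hA σ hσ
    have hℓS' : ℓ ∉ S := hℓS
    rw [alpp_charpoly p N S hpS hNS hp'' hp0 lam h2 ℓ hℓ hℓN hℓS' A hA σ hσ]
    have h3 := hlam (CuspForm.heckeAlgebra.T hℓ hℓN hℓS)
    have h4 : algebraMap P.R 𝒪'' (P.ψ (H.π (CuspForm.heckeAlgebra.T hℓ hℓN hℓS))) =
        algebraMap P.R 𝒪'' (((P.ψ : T →+* P.R).comp H.π) (CuspForm.heckeAlgebra.T hℓ hℓN hℓS)) :=
      rfl
    rw [h4, ← h3]
    rfl
  · intro m
    haveI : Finite (𝒪'' ⧸ Ideal.span {(p : 𝒪'') ^ m}) :=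
      alpp_finite_quot _ (pow_ne_zero m hp0)
    exact ⟨alps_finite_quot _ _,
      alpp_flat p N hpN 𝒪'' hp'' hp0 lam h2 (Ideal.span {(p : 𝒪'') ^ m})⟩

end EmbPoint

end

end Fermat.Agent.Alpha
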