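/-
ALPHA / S32 (helper4): **the final assembly modulo the reducedness of `T`**.

`alpp_s32_of_reduced` : for a Hecke–Galois datum `H` of level `N` away from `S` (`p ∤ N`, `p ∈ S`, the
primes dividing `N` in `S`) over a reduced `T`, `H.ρ` is flat at `p`: the finitely many points of `T`
(`alpq_exists_points`) give embeddings `S32Emb p H.ρ.ρ (ker P.ψ)` (`alpp_emb_point'`), which are
intersected (`S32Emb.top`, `S32Emb.inf`) to `S32Emb p H.ρ.ρ ⊥`; then `s32_isFlatAt_of_emb`.
-/
import Mathlib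
import Fermat.Agent.Lib.Alpha.S32.Point

set_option autoImplicit false
set_option linter.unusedSectionVars false
set_option linter.unusedVariables false
set_option linter.style.haveILetI false

namespace Fermat.Agent.Alpha

open Fermat.Agent.S32L IsLocalRing

variable {p : ℕ} {N : ℕ} [NeZero N] {S : Finset ℕ}
  {𝒪 : Type} [CommRing 𝒪] [IsDomain 𝒪] [IsDiscreteValuationRing 𝒪]
  [IsAdicComplete (IsLocalRing.maximalIdeal 𝒪) 𝒪]
  {θ : CuspForm.heckeAlgebra N 2 (↑S : Set ℕ) →+* IsLocalRing.ResidueField 𝒪}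
  {T : Type} [CommRing T] [IsLocalRing T] [IsNoetherianRing T]
  [IsAdicComplete (IsLocalRing.maximalIdeal T) T] [Algebra 𝒪 T] [IsLocalHom (algebraMap 𝒪 T)]
  [Module.Finite 𝒪 T] [Module.Free 𝒪 T]

/-- **S32 from the reducedness of `T`** -/
theorem alpp_s32_of_reduced [Finite (IsLocalRing.ResidueField 𝒪)] [CharZero 𝒪]
    (hp : p.Prime) (hp𝒪 : (p : 𝒪) ∈ IsLocalRing.maximalIdeal 𝒪) (hpN : ¬ p ∣ N)
    (hpS : p ∈ S) (hNS : ∀ q : ℕ, q.Prime → q ∣ N → q ∈ S)
    (H : CuspForm.HeckeGaloisRepDatum N (↑S : Set ℕ) 𝒪 θ T) (hred : IsReduced T) :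
    H.ρ.IsFlatAt p := by
  classical
  haveI : Fact p.Prime := ⟨hp⟩
  obtain ⟨n, P, hP⟩ := alpq_exists_points (𝒪 := 𝒪) (T := T)
  have hstep : ∀ s : Finset (Fin n),
      S32Emb p H.ρ.ρ (s.inf fun i => RingHom.ker ((P i).ψ : T →+* (P i).R)) := by
    intro s
    induction s using Finset.induction_on with
    | empty =>
      rw [Finset.inf_empty]
      exact S32Emb.top H.ρ.ρ
    | insert i s hi ih =>
      rw [Finset.inf_insert]
      exact S32Emb.inf H.ρ.ρ (alpp_emb_point' hp𝒪 hpN hpS hNS H (P i)) ih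
  have hbot : (Finset.univ.inf fun i => RingHom.ker ((P i).ψ : T →+* (P i).R)) = ⊥ := by
    rw [eq_bot_iff]
    intro t ht
    rw [Submodule.mem_finsetInf] at ht
    rw [Ideal.mem_bot]
    exact hP t fun i => ht i (Finset.mem_univ i)
  have hemb : S32Emb p H.ρ.ρ ⊥ := by
    rw [← hbot]
    exact hstep Finset.univ
  have hfin : Finite (ResidueField T) := by
    refine Finite.of_surjective (ResidueField.map (algebraMap 𝒪 T)) ?_
    intro y
    obtain ⟨a, ha⟩ := H.residue_surjective y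
    exact ⟨residue 𝒪 a, ha⟩
  have hpT : (p : T) ∈ maximalIdeal T := by
    have h := map_nonunit (algebraMap 𝒪 T) _ hp𝒪
    rwa [map_natCast] at h
  exact s32_isFlatAt_of_emb H.ρ hfin hpT hemb

end Fermat.Agent.Alpha
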