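/-
ALPHA / S32 (helper4), piece (c): **the lattice glue**.

* `AlphHasOrder.of_correspondence` : if `f : M → V` and `π : M ↠ W` are equivariant additive maps out
  of a common source with `ker f ⊆ ker π` and `V` has a Hopf order, then so has `W` (a sub-quotient
  of `V`);
* `alpl_artin_rees` : Artin–Rees for an injection of a module into a finite module over a Noetherian
  ring: `ι x ∈ a^k' M' ⇒ x ∈ a^k M₁`;
* `alpl_order_of_embedding` : a `G_ℚ`-lattice `M₁` embedded equivariantly in a lattice `M'` all of whose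
  quotients `M' / a^k'` have Hopf orders: every equivariant quotient of `M₁` killed by a power of `a`
  has a Hopf order.
-/
import Mathlib
import Fermat.Agent.Lib.Alpha.S32.Flat

set_option autoImplicit false
set_option linter.unusedSectionVars false
set_option linter.style.haveILetI false

namespace Fermat.Agent.Alpha

local notation "Qb" => AlgebraicClosure ℚ
local notation "GQ" => (AlgebraicClosure ℚ ≃ₐ[ℚ] AlgebraicClosure ℚ)

section Corr

variable {ℓ : ℕ} [Fact ℓ.Prime]
variable {V W : Type} [AddCommGroup V] [DistribMulAction GQ V] [AddCommGroup W]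
  [DistribMulAction GQ W]

/-- the restriction of the action to the range of an equivariant map -/
@[instance_reducible]
noncomputable def alplRangeAction {M : Type*} [AddCommGroup M] (act : GQ → M → M) (f : M →+ V)
    (hf : ∀ σ x, f (act σ x) = σ • f x) : DistribMulAction GQ ↥f.range where
  smul σ u := ⟨σ • (u : V), by
    obtain ⟨x, hx⟩ := u.2
    exact ⟨act σ x, by rw [hf, hx]⟩⟩
  one_smul u := Subtype.ext (one_smul GQ (u : V))
  mul_smul σ τ u := Subtype.ext (mul_smul σ τ (u : V))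
  smul_zero σ := Subtype.ext (smul_zero σ)
  smul_add σ u v := Subtype.ext (smul_add σ (u : V) (v : V))

/-- **correspondences**: `W = π(M)` is an equivariant sub-quotient of `V` via the common source
`M` -/
theorem AlphHasOrder.of_correspondence [Finite V] (h : AlphHasOrder ℓ V)
    {M : Type*} [AddCommGroup M] (act : GQ → M → M) (f : M →+ V) (π : M →+ W)
    (hf : ∀ σ x, f (act σ x) = σ • f x) (hπ : ∀ σ x, π (act σ x) = σ • π x)
    (hsurj : Function.Surjective π) (hker : ∀ x, f x = 0 → π x = 0) : AlphHasOrder ℓ W := by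
  classical
  letI := alplRangeAction act f hf
  -- the map `range f → W`
  have hwd : ∀ x x' : M, f x = f x' → π x = π x' := by
    intro x x' hxx'
    have h1 : f (x - x') = 0 := by rw [map_sub, hxx', sub_self]
    have h2 := hker _ h1
    rw [map_sub, sub_eq_zero] at h2
    exact h2
  let g : ↥f.range → W := fun u => π (Classical.choose u.2)
  have hg : ∀ x : M, g ⟨f x, ⟨x, rfl⟩⟩ = π x := fun x =>
    hwd _ _ (Classical.choose_spec (⟨f x, ⟨x, rfl⟩⟩ : ↥f.range).2)
  have hrep : ∀ u : ↥f.range, ∃ x : M, u = ⟨f x, ⟨x, rfl⟩⟩ := by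
    rintro ⟨_, x, rfl⟩
    exact ⟨x, rfl⟩
  let π' : ↥f.range →+ W :=
    { toFun := g
      map_zero' := by
        have h0 : (0 : ↥f.range) = ⟨f 0, ⟨0, rfl⟩⟩ := Subtype.ext (map_zero f).symm
        rw [h0, hg, map_zero]
      map_add' := by
        intro u v
        obtain ⟨x, rfl⟩ := hrep u
        obtain ⟨y, rfl⟩ := hrep v
        have h1 : (⟨f x, ⟨x, rfl⟩⟩ + ⟨f y, ⟨y, rfl⟩⟩ : ↥f.range) = ⟨f (x + y), ⟨x + y, rfl⟩⟩ :=
          Subtype.ext (map_add f x y).symm
        rw [h1, hg, hg, hg, map_add] }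
  refine h.of_subquotient (U := ↥f.range) f.range.subtype Subtype.val_injective
    (fun σ u => rfl) π' ?_ ?_
  · intro w
    obtain ⟨x, rfl⟩ := hsurj w
    exact ⟨⟨f x, ⟨x, rfl⟩⟩, hg x⟩
  · intro σ u
    obtain ⟨x, rfl⟩ := hrep u
    have h1 : (σ • (⟨f x, ⟨x, rfl⟩⟩ : ↥f.range)) = ⟨f (act σ x), ⟨act σ x, rfl⟩⟩ :=
      Subtype.ext (hf σ x).symm
    show g (σ • (⟨f x, ⟨x, rfl⟩⟩ : ↥f.range)) = σ • g ⟨f x, ⟨x, rfl⟩⟩
    rw [h1, hg, hg, hπ]

end Corr

section ArtinRees

variable {R : Type*} [CommRing R] [IsNoetherianRing R] (a : R)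
  {M₁ M' : Type*} [AddCommGroup M₁] [Module R M₁] [AddCommGroup M'] [Module R M']
  [Module.Finite R M']

/-- **Artin–Rees** for an injective linear map into a finite module: divisibility by a high power
of `a` in the big module forces divisibility by `a ^ k` in the small one -/
theorem alpl_artin_rees (ι : M₁ →ₗ[R] M') (hι : Function.Injective ι) (k : ℕ) :
    ∃ k' : ℕ, ∀ x : M₁, (∃ y : M', ι x = a ^ k' • y) → ∃ z : M₁, x = a ^ k • z := by
  obtain ⟨c, hc⟩ := Ideal.exists_pow_inf_eq_pow_smul (Ideal.span {a}) (LinearMap.range ι)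
  refine ⟨k + c, fun x hx => ?_⟩
  obtain ⟨y, hy⟩ := hx
  have h1 : ι x ∈ (Ideal.span {a}) ^ (k + c) • (⊤ : Submodule R M') ⊓ LinearMap.range ι := by
    refine ⟨?_, LinearMap.mem_range_self ι x⟩
    rw [hy]
    exact Submodule.smul_mem_smul (Ideal.pow_mem_pow (Ideal.mem_span_singleton_self a) _)
      Submodule.mem_top
  rw [hc (k + c) (Nat.le_add_left c k), Nat.add_sub_cancel] at h1
  have h2 : (Ideal.span {a}) ^ k • ((Ideal.span {a}) ^ c • (⊤ : Submodule R M') ⊓ LinearMap.range ι)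
      ≤ (Ideal.span {a}) ^ k • LinearMap.range ι :=
    Submodule.smul_mono le_rfl inf_le_right
  have h3 := h2 h1
  rw [Ideal.span_singleton_pow, Submodule.ideal_span_singleton_smul] at h3
  obtain ⟨n, hn, hn'⟩ := h3
  obtain ⟨z, rfl⟩ := hn
  refine ⟨z, hι ?_⟩
  rw [map_smul]
  exact hn'.symm

end ArtinRees

section Embedding

variable (ℓ : ℕ) [Fact ℓ.Prime]
variable {R : Type*} [CommRing R] [IsNoetherianRing R] (a : R)
  {M₁ M' : Type*} [AddCommGroup M₁] [Module R M₁] [AddCommGroup M'] [Module R M']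
  [Module.Finite R M']

/-- **the lattice glue**: an equivariantly embedded lattice inherits Hopf orders on its quotients
killed by a power of `a` -/
theorem alpl_order_of_embedding (act₁ : GQ → M₁ → M₁) (act' : GQ → M' → M')
    (ι : M₁ →ₗ[R] M') (hι : Function.Injective ι) (hισ : ∀ σ x, ι (act₁ σ x) = act' σ (ι x))
    (hV' : ∀ k' : ℕ, ∃ (V' : Type) (_ : AddCommGroup V') (_ : DistribMulAction GQ V')
      (_ : Finite V') (q : M' →+ V'), AlphHasOrder ℓ V' ∧ (∀ σ y, q (act' σ y) = σ • q y) ∧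
        ∀ y, q y = 0 → ∃ y' : M', y = a ^ k' • y')
    {W : Type} [AddCommGroup W] [DistribMulAction GQ W] (π : M₁ →+ W)
    (hπ : Function.Surjective π) (hπσ : ∀ σ x, π (act₁ σ x) = σ • π x) (k : ℕ)
    (hk : ∀ x, π (a ^ k • x) = 0) : AlphHasOrder ℓ W := by
  obtain ⟨k', hk'⟩ := alpl_artin_rees a ι hι k
  obtain ⟨V', i1, i2, i3, q, hV, hqσ, hq⟩ := hV' k'
  refine hV.of_correspondence act₁ (q.comp ι.toAddMonoidHom) π ?_ hπσ hπ ?_
  · intro σ x
    show q (ι (act₁ σ x)) = σ • q (ι x)
    rw [hισ, hqσ]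
  · intro x hx
    obtain ⟨y', hy'⟩ := hq (ι x) hx
    obtain ⟨z, rfl⟩ := hk' x ⟨y', hy'⟩
    exact hk z

end Embedding

end Fermat.Agent.Alpha
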