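/-
S32 (a1) (helper9): **the ring `T` of a Hecke–Galois datum is reduced** (`alpz_isReduced`).

`𝕋 := heckeAlgebra N 2 S` is reduced (`s31_hecke_reduced`, Petersson) and finite free over `ℤ`; hence
every `t ∈ 𝕋` is killed by a polynomial `P ∈ ℤ[X]` which is squarefree over `ℚ` (`alpz_exists_poly`).
`T` is finite free over the characteristic-zero domain `𝒪` and generated by the `π t`; in the regular
representation `T ↪ End_K (K^ι)`, `K = Frac 𝒪`, the `π t` are semisimple (killed by the separable
`P`), commuting semisimple endomorphisms over a perfect field form a subalgebra, so every element of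
`T` is semisimple, and a nilpotent semisimple endomorphism vanishes.
-/
import Mathlib
import Fermat.Agent.Lib.S31.Petersson.Diag
import Fermat.Agent.Lib.S22.HeckeFinite
import Fermat.Prelude.Def_CuspForm_HeckeGaloisRepDatum

set_option autoImplicit false
set_option linter.style.haveILetI false
set_option linter.unusedSectionVars false

open Polynomial

namespace Fermat.Agent.Alpha

noncomputable section

section Reg

variable (R K A : Type*) [CommRing R] [Field K] [Algebra R K] [CommRing A] [Algebra R A]
  [Module.Free R A] [Module.Finite R A]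

open Classical in
/-- the regular representation of a finite free algebra, over a field containing the base ring -/
def alpzReg : A →ₐ[R] Module.End K (Module.Free.ChooseBasisIndex R A → K) :=
  ((Matrix.toLinAlgEquiv' (R := K) (n := Module.Free.ChooseBasisIndex R A)).toAlgHom.restrictScalars
      R).comp
    (((Algebra.ofId R K).mapMatrix).comp (Algebra.leftMulMatrix (Module.Free.chooseBasis R A)))

theorem alpzReg_injective (hRK : Function.Injective (algebraMap R K)) :
    Function.Injective (alpzReg R K A) := by
  classical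
  intro x y hxy
  simp only [alpzReg, AlgHom.comp_apply, AlgHom.restrictScalars_apply] at hxy
  have h1 := (Matrix.toLinAlgEquiv' (R := K) (n := Module.Free.ChooseBasisIndex R A)).injective hxy
  have h2 : Function.Injective ((Algebra.ofId R K).mapMatrix (m := Module.Free.ChooseBasisIndex R A)) := by
    intro M M' hMM'
    ext i j
    have := congrFun (congrFun hMM' i) j
    exact hRK this
  exact Algebra.leftMulMatrix_injective _ (h2 h1)

theorem alpzReg_commute (x y : A) : Commute (alpzReg R K A x) (alpzReg R K A y) := by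
  rw [Commute, SemiconjBy, ← map_mul, ← map_mul, mul_comm]

theorem alpzReg_aeval (x : A) (P : R[X]) :
    aeval (alpzReg R K A x) (P.map (algebraMap R K)) = alpzReg R K A (aeval x P) := by
  rw [aeval_map_algebraMap, aeval_algHom_apply]

end Reg

section Sq

variable {R K A : Type*} [CommRing R] [IsDomain R] [Field K] [Algebra R K] [IsFractionRing R K]
  [CommRing A] [Algebra R A] [Module.Free R A] [Module.Finite R A]

/-- clearing denominators -/
theorem alpz_exists_int (p : K[X]) : ∃ (b : R) (p0 : R[X]), b ≠ 0 ∧
    p0.map (algebraMap R K) = C (algebraMap R K b) * p := by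
  obtain ⟨b, hb, h⟩ := IsLocalization.integerNormalization_spec (nonZeroDivisors R) p
  refine ⟨b, IsLocalization.integerNormalization (nonZeroDivisors R) p,
    nonZeroDivisors.ne_zero hb, ?_⟩
  rw [h, Algebra.smul_def, Polynomial.algebraMap_apply]

/-- in a reduced finite free algebra over a domain every element is killed by a polynomial which is
squarefree over the fraction field -/
theorem alpz_exists_poly [IsReduced A] (a : A) :
    ∃ P : R[X], aeval a P = 0 ∧ Squarefree (P.map (algebraMap R K)) := by
  classical
  have hinj : Function.Injective (algebraMap R K) := IsFractionRing.injective R K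
  set f := alpzReg R K A a with hf
  have hfint : IsIntegral K f := Algebra.IsIntegral.isIntegral f
  -- nilpotent polynomial expressions in `f` vanish
  have hnil : ∀ (p : K[X]) (n : ℕ), aeval f p ^ n = 0 → aeval f p = 0 := by
    intro p n hn
    obtain ⟨b, p0, hb, hp0⟩ := alpz_exists_int (R := R) p
    have h1 : alpzReg R K A (aeval a p0) = algebraMap R K b • aeval f p := by
      rw [← alpzReg_aeval, hp0, map_mul, aeval_C, Algebra.algebraMap_eq_smul_one, smul_mul_assoc,
        one_mul]
    have h2 : aeval a p0 ^ n = 0 := by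
      apply alpzReg_injective R K A hinj
      rw [map_pow, h1, _root_.smul_pow, hn, smul_zero, map_zero]
    have h3 : aeval a p0 = 0 := IsReduced.eq_zero _ ⟨n, h2⟩
    rw [h3, map_zero] at h1
    have hbK : algebraMap R K b ≠ 0 := fun h => hb (hinj (by rw [h, map_zero]))
    exact (smul_eq_zero.mp h1.symm).resolve_left hbK
  have hμ0 : minpoly K f ≠ 0 := minpoly.ne_zero hfint
  have hsq : Squarefree (minpoly K f) := by
    rw [← isRadical_iff_squarefree_of_ne_zero hμ0]
    intro n p hp
    apply minpoly.dvd
    apply hnil p n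
    rw [← map_pow]
    obtain ⟨q, hq⟩ := hp
    rw [hq, map_mul, minpoly.aeval, zero_mul]
  obtain ⟨b, P, hb, hP⟩ := alpz_exists_int (R := R) (minpoly K f)
  have hbK : algebraMap R K b ≠ 0 := fun h => hb (hinj (by rw [h, map_zero]))
  refine ⟨P, ?_, ?_⟩
  · apply alpzReg_injective R K A hinj
    rw [← alpzReg_aeval, hP, map_mul, minpoly.aeval, mul_zero, map_zero]
  · rw [hP]
    obtain ⟨u, hu⟩ : IsUnit (C (algebraMap R K b) : K[X]) :=
      isUnit_C.mpr (isUnit_iff_ne_zero.mpr hbK)
    have hass : Associated (minpoly K f) (C (algebraMap R K b) * minpoly K f) :=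
      ⟨u, by rw [hu, mul_comm]⟩
    exact hass.squarefree_iff.mp hsq

/-- a finite free algebra over a characteristic-zero domain, generated by elements killed by
polynomials which are squarefree over the fraction field, is reduced -/
theorem alpz_isReduced_of_gen [CharZero K] (G : Set A) (hG : Algebra.adjoin R G = ⊤)
    (hsq : ∀ g ∈ G, ∃ P : R[X], aeval g P = 0 ∧ Squarefree (P.map (algebraMap R K))) :
    IsReduced A := by
  classical
  have hinj : Function.Injective (algebraMap R K) := IsFractionRing.injective R K
  -- the subalgebra of elements acting semisimply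
  let 𝒮 : Subalgebra R A :=
    { carrier := {x | (alpzReg R K A x).IsSemisimple}
      mul_mem' := fun {x y} hx hy => by
        change (alpzReg R K A (x * y)).IsSemisimple
        rw [map_mul]
        exact Module.End.IsSemisimple.mul_of_commute (alpzReg_commute R K A x y) hx hy
      add_mem' := fun {x y} hx hy => by
        change (alpzReg R K A (x + y)).IsSemisimple
        rw [map_add]
        exact Module.End.IsSemisimple.add_of_commute (alpzReg_commute R K A x y) hx hy
      algebraMap_mem' := fun r => by
        change (alpzReg R K A (algebraMap R A r)).IsSemisimple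
        rw [AlgHom.commutes, IsScalarTower.algebraMap_apply R K]
        rw [Algebra.algebraMap_eq_smul_one]
        exact Module.End.IsSemisimple_smul _ Module.End.isSemisimple_id }
  have hG𝒮 : G ⊆ 𝒮 := by
    intro g hg
    obtain ⟨P, hP0, hPsq⟩ := hsq g hg
    change (alpzReg R K A g).IsSemisimple
    apply Module.End.isSemisimple_of_squarefree_aeval_eq_zero hPsq
    rw [alpzReg_aeval, hP0, map_zero]
  have htop : 𝒮 = ⊤ := top_le_iff.mp (hG ▸ Algebra.adjoin_le hG𝒮)
  refine ⟨fun x hx => ?_⟩
  have hxs : (alpzReg R K A x).IsSemisimple := by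
    have : x ∈ 𝒮 := htop ▸ Algebra.mem_top
    exact this
  have hxn : IsNilpotent (alpzReg R K A x) := hx.map _
  have := Module.End.eq_zero_of_isNilpotent_isSemisimple hxn hxs
  exact alpzReg_injective R K A hinj (by rw [this, map_zero])

end Sq

section Datum

variable {N : ℕ} [NeZero N] {S : Finset ℕ}
  {𝒪 : Type} [CommRing 𝒪] [IsDomain 𝒪] [IsDiscreteValuationRing 𝒪]
  [IsAdicComplete (IsLocalRing.maximalIdeal 𝒪) 𝒪]
  {θ : CuspForm.heckeAlgebra N 2 (↑S : Set ℕ) →+* IsLocalRing.ResidueField 𝒪}
  {T : Type} [CommRing T] [IsLocalRing T] [IsNoetherianRing T]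
  [IsAdicComplete (IsLocalRing.maximalIdeal T) T] [Algebra 𝒪 T] [IsLocalHom (algebraMap 𝒪 T)]
  [Module.Finite 𝒪 T] [Module.Free 𝒪 T]

/-- every Hecke operator is killed by an integral polynomial which is squarefree over `ℚ` -/
theorem alpz_hecke_exists_poly (hNS : ∀ q : ℕ, q.Prime → q ∣ N → q ∈ S)
    (t : CuspForm.heckeAlgebra N 2 (↑S : Set ℕ)) :
    ∃ P : ℤ[X], aeval t P = 0 ∧ Squarefree (P.map (Int.castRingHom ℚ)) := by
  haveI : Module.Finite ℤ (CuspForm.heckeAlgebra N 2 (↑S : Set ℕ)) :=
    Fermat.Agent.S22Lib.moduleFinite_heckeAlgebra N 2 _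
  haveI : Module.Free ℤ (CuspForm.heckeAlgebra N 2 (↑S : Set ℕ)) :=
    Module.free_of_finite_type_torsion_free'
  haveI : IsReduced (CuspForm.heckeAlgebra N 2 (↑S : Set ℕ)) :=
    Fermat.Agent.S31P.s31_hecke_reduced hNS
  exact alpz_exists_poly (R := ℤ) (K := ℚ) t

/-- **the ring `T` of a Hecke–Galois datum is reduced** -/
theorem alpz_isReduced [CharZero 𝒪] (hNS : ∀ q : ℕ, q.Prime → q ∣ N → q ∈ S)
    (H : CuspForm.HeckeGaloisRepDatum N (↑S : Set ℕ) 𝒪 θ T) : IsReduced T := by
  haveI : CharZero (FractionRing 𝒪) :=
    charZero_of_injective_algebraMap (IsFractionRing.injective 𝒪 (FractionRing 𝒪))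
  apply alpz_isReduced_of_gen (R := 𝒪) (K := FractionRing 𝒪) (Set.range H.π) H.adjoin_range_π
  rintro _ ⟨t, rfl⟩
  obtain ⟨P, hP0, hPsq⟩ := alpz_hecke_exists_poly hNS t
  refine ⟨P.map (Int.castRingHom 𝒪), ?_, ?_⟩
  · have h1 : (algebraMap 𝒪 T).comp (Int.castRingHom 𝒪) =
        (H.π).comp (algebraMap ℤ (CuspForm.heckeAlgebra N 2 (↑S : Set ℕ))) := RingHom.ext_int _ _
    rw [aeval_def, eval₂_map, h1, ← hom_eval₂, ← aeval_def, hP0, map_zero]
  · have hsep : (P.map (Int.castRingHom ℚ)).Separable :=
      PerfectField.separable_iff_squarefree.mpr hPsq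
    have h2 := hsep.map (f := algebraMap ℚ (FractionRing 𝒪))
    rw [Polynomial.map_map] at h2 ⊢
    have h3 : (algebraMap ℚ (FractionRing 𝒪)).comp (Int.castRingHom ℚ) =
        (algebraMap 𝒪 (FractionRing 𝒪)).comp (Int.castRingHom 𝒪) := RingHom.ext_int _ _
    rw [h3] at h2
    exact h2.squarefree

/-- the same, in the literal shape of the S32 brief -/
theorem alpz_reduced [CharZero 𝒪] [Finite (IsLocalRing.ResidueField 𝒪)]
    (hNS : ∀ q : ℕ, q.Prime → q ∣ N → q ∈ S)
    (H : CuspForm.HeckeGaloisRepDatum N (↑S : Set ℕ) 𝒪 θ T) : IsReduced T :=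
  alpz_isReduced hNS H

end Datum

end

end Fermat.Agent.Alpha
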